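/-
S59lib / Nu / Restrict (helper6): **restriction of Hecke operators to the old subspace**.

For `M ∣ N` the space `S₂(Γ₀(M))` sits inside `S₂(Γ₀(N))` (the same functions, `oldIncl`), and it is
stable under the `T_ℓ`, `ℓ ∤ N`.  If all primes dividing `N` lie in `S`, the anemic Hecke algebra
`heckeAlgebra N 2 S` is generated by these `T_ℓ`, and restriction gives a ring homomorphism

  `restrictHecke : heckeAlgebra N 2 S →+* heckeAlgebra M 2 S`,   `T_ℓ ↦ T_ℓ`.

Composed with the inclusion `heckeAlgebra M 2 S ≤ heckeAlgebra M 2 S'` (`S' ⊆ S`) this is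
`restrictHecke' : heckeAlgebra N 2 S →+* heckeAlgebra M 2 S'`.
-/
import Mathlib
import Fermat.Prelude.Def_CuspForm_HeckeAlgebra

set_option autoImplicit false
set_option linter.unusedSectionVars false
set_option linter.unusedVariables false
set_option linter.style.haveILetI false

noncomputable section

namespace Fermat.Agent.S59lib.Nu

open CongruenceSubgroup CuspForm
open scoped MatrixGroups

/-! ### the old subspace -/

theorem Gamma0_le_of_dvd {M N : ℕ} (h : M ∣ N) : Gamma0 N ≤ Gamma0 M := by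
  intro γ hγ
  rw [Gamma0_mem] at hγ ⊢
  have h3 := (ZMod.intCast_zmod_eq_zero_iff_dvd (γ 1 0) N).mp hγ
  exact (ZMod.intCast_zmod_eq_zero_iff_dvd (γ 1 0) M).mpr
    (dvd_trans (Int.natCast_dvd_natCast.mpr h) h3)

/-- a cusp form of level `M` as a cusp form of level `N`, `M ∣ N` -/
def oldIncl {M N : ℕ} (h : M ∣ N) (k : ℤ) :
    CuspForm (Gamma0 M) k →ₗ[ℂ] CuspForm (Gamma0 N) k where
  toFun f :=
    { toFun := f
      slash_action_eq' := fun γ hγ =>
        f.slash_action_eq' γ (Subgroup.map_mono (Gamma0_le_of_dvd h) hγ)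
      holo' := f.holo'
      zero_at_cusps' := fun hc =>
        f.zero_at_cusps' (hc.mono (Subgroup.map_mono (Gamma0_le_of_dvd h))) }
  map_add' _ _ := DFunLike.coe_injective rfl
  map_smul' _ _ := DFunLike.coe_injective rfl

@[simp] theorem coe_oldIncl {M N : ℕ} (h : M ∣ N) (k : ℤ) (f : CuspForm (Gamma0 M) k) :
    ⇑(oldIncl h k f) = ⇑f := rfl

theorem oldIncl_injective {M N : ℕ} (h : M ∣ N) (k : ℤ) : Function.Injective (oldIncl h k) :=
  fun f g hfg => DFunLike.coe_injective (congrArg (fun F : CuspForm (Gamma0 N) k => ⇑F) hfg)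

/-- `T_ℓ` commutes with the inclusion of the old subspace -/
theorem heckeTLin_oldIncl {M N : ℕ} (h : M ∣ N) (k : ℤ) {ℓ : ℕ} (hℓ : ℓ.Prime) (hℓN : ¬ ℓ ∣ N)
    (hℓM : ¬ ℓ ∣ M) (f : CuspForm (Gamma0 M) k) :
    heckeTLin k hℓ hℓN (oldIncl h k f) = oldIncl h k (heckeTLin k hℓ hℓM f) :=
  DFunLike.coe_injective rfl

theorem comp_oldIncl_cancel {M N : ℕ} (h : M ∣ N) (k : ℤ)
    {a b : Module.End ℂ (CuspForm (Gamma0 M) k)}
    (hab : (oldIncl h k) ∘ₗ a = (oldIncl h k) ∘ₗ b) : a = b :=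
  LinearMap.ext fun f => oldIncl_injective h k (LinearMap.congr_fun hab f)

/-! ### the restriction homomorphism -/

section Restrict

variable {M N : ℕ} [NeZero M] [NeZero N] (h : M ∣ N) (k : ℤ) (S : Set ℕ)

/-- the operators of level `N` that preserve the old subspace and act on it through
`heckeAlgebra M k S` -/
def compatSub : Subalgebra ℤ (Module.End ℂ (CuspForm (Gamma0 N) k)) where
  carrier := {t | ∃ t' ∈ heckeAlgebra M k S, t ∘ₗ (oldIncl h k) = (oldIncl h k) ∘ₗ t'}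
  mul_mem' := by
    rintro a b ⟨a', ha', ha⟩ ⟨b', hb', hb⟩
    refine ⟨a' * b', mul_mem ha' hb', ?_⟩
    rw [Module.End.mul_eq_comp, Module.End.mul_eq_comp, LinearMap.comp_assoc, hb,
      ← LinearMap.comp_assoc, ha, LinearMap.comp_assoc]
  add_mem' := by
    rintro a b ⟨a', ha', ha⟩ ⟨b', hb', hb⟩
    refine ⟨a' + b', add_mem ha' hb', ?_⟩
    rw [LinearMap.add_comp, LinearMap.comp_add, ha, hb]
  algebraMap_mem' := by
    intro n
    refine ⟨algebraMap ℤ _ n, Subalgebra.algebraMap_mem _ n, ?_⟩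
    refine LinearMap.ext fun f => ?_
    simp only [LinearMap.comp_apply, Module.algebraMap_end_apply, map_zsmul]

theorem mem_compatSub {t : Module.End ℂ (CuspForm (Gamma0 N) k)} :
    t ∈ compatSub h k S ↔
      ∃ t' ∈ heckeAlgebra M k S, t ∘ₗ (oldIncl h k) = (oldIncl h k) ∘ₗ t' := Iff.rfl

theorem heckeAlgebra_le_compatSub (hNS : ∀ q : ℕ, q.Prime → q ∣ N → q ∈ S) :
    heckeAlgebra N k S ≤ compatSub h k S := by
  refine Algebra.adjoin_le ?_
  rintro t (⟨ℓ, hℓ, hℓN, hℓS, rfl⟩ | ⟨q, hqN, hq, hqS, rfl⟩)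
  · have hℓM : ¬ ℓ ∣ M := fun hd => hℓN (hd.trans h)
    exact ⟨heckeTLin k hℓ hℓM, heckeTLin_mem_heckeAlgebra hℓ hℓM hℓS,
      LinearMap.ext fun f => heckeTLin_oldIncl h k hℓ hℓN hℓM f⟩
  · exact absurd (hNS q hq hqN) hqS

variable (hNS : ∀ q : ℕ, q.Prime → q ∣ N → q ∈ S)

/-- the restriction of `t` to the old subspace, as an endomorphism -/
def restrictEnd (t : heckeAlgebra N k S) : Module.End ℂ (CuspForm (Gamma0 M) k) :=
  Classical.choose (heckeAlgebra_le_compatSub h k S hNS t.2)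

theorem restrictEnd_mem (t : heckeAlgebra N k S) :
    restrictEnd h k S hNS t ∈ heckeAlgebra M k S :=
  (Classical.choose_spec (heckeAlgebra_le_compatSub h k S hNS t.2)).1

theorem restrictEnd_spec (t : heckeAlgebra N k S) :
    (t : Module.End ℂ (CuspForm (Gamma0 N) k)) ∘ₗ (oldIncl h k) =
      (oldIncl h k) ∘ₗ restrictEnd h k S hNS t :=
  (Classical.choose_spec (heckeAlgebra_le_compatSub h k S hNS t.2)).2

theorem restrictEnd_unique (t : heckeAlgebra N k S) {t' : Module.End ℂ (CuspForm (Gamma0 M) k)}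
    (ht' : (t : Module.End ℂ (CuspForm (Gamma0 N) k)) ∘ₗ (oldIncl h k) = (oldIncl h k) ∘ₗ t') :
    restrictEnd h k S hNS t = t' :=
  comp_oldIncl_cancel h k ((restrictEnd_spec h k S hNS t).symm.trans ht')

/-- **restriction to the old subspace**, `heckeAlgebra N k S →+* heckeAlgebra M k S` -/
def restrictHecke : heckeAlgebra N k S →+* heckeAlgebra M k S where
  toFun t := ⟨restrictEnd h k S hNS t, restrictEnd_mem h k S hNS t⟩
  map_one' := Subtype.ext (restrictEnd_unique h k S hNS 1 (by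
    rw [OneMemClass.coe_one, OneMemClass.coe_one]; rfl))
  map_mul' a b := Subtype.ext (restrictEnd_unique h k S hNS (a * b) (by
    rw [MulMemClass.coe_mul, MulMemClass.coe_mul, Module.End.mul_eq_comp, Module.End.mul_eq_comp,
      LinearMap.comp_assoc, restrictEnd_spec h k S hNS b, ← LinearMap.comp_assoc,
      restrictEnd_spec h k S hNS a, LinearMap.comp_assoc]))
  map_zero' := Subtype.ext (restrictEnd_unique h k S hNS 0 (by
    rw [ZeroMemClass.coe_zero, ZeroMemClass.coe_zero, LinearMap.zero_comp, LinearMap.comp_zero]))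
  map_add' a b := Subtype.ext (restrictEnd_unique h k S hNS (a + b) (by
    rw [AddMemClass.coe_add, AddMemClass.coe_add, LinearMap.add_comp, LinearMap.comp_add,
      restrictEnd_spec h k S hNS a, restrictEnd_spec h k S hNS b]))

theorem coe_restrictHecke (t : heckeAlgebra N k S) :
    ((restrictHecke h k S hNS t : heckeAlgebra M k S) : Module.End ℂ (CuspForm (Gamma0 M) k)) =
      restrictEnd h k S hNS t := rfl

/-- the defining property: `t (f) = (restrictHecke t) (f)` for `f` in the old subspace -/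
theorem restrictHecke_apply (t : heckeAlgebra N k S) (f : CuspForm (Gamma0 M) k) :
    (t : Module.End ℂ (CuspForm (Gamma0 N) k)) (oldIncl h k f) =
      oldIncl h k (((restrictHecke h k S hNS t : heckeAlgebra M k S) :
        Module.End ℂ (CuspForm (Gamma0 M) k)) f) :=
  LinearMap.congr_fun (restrictEnd_spec h k S hNS t) f

theorem restrictHecke_T {ℓ : ℕ} (hℓ : ℓ.Prime) (hℓN : ¬ ℓ ∣ N) (hℓS : ℓ ∉ S) (hℓM : ¬ ℓ ∣ M) :
    restrictHecke h k S hNS (heckeAlgebra.T hℓ hℓN hℓS) = heckeAlgebra.T hℓ hℓM hℓS :=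
  Subtype.ext (restrictEnd_unique h k S hNS _
    (LinearMap.ext fun f => heckeTLin_oldIncl h k hℓ hℓN hℓM f))

/-- restriction followed by the enlargement of the Hecke algebra, `S' ⊆ S` -/
def restrictHecke' {S' : Set ℕ} (hS : S' ⊆ S) : heckeAlgebra N k S →+* heckeAlgebra M k S' :=
  ((Subalgebra.inclusion (heckeAlgebra_mono (N := M) (k := k) hS)).toRingHom).comp
    (restrictHecke h k S hNS)

theorem restrictHecke'_T {S' : Set ℕ} (hS : S' ⊆ S) {ℓ : ℕ} (hℓ : ℓ.Prime) (hℓN : ¬ ℓ ∣ N)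
    (hℓS : ℓ ∉ S) (hℓM : ¬ ℓ ∣ M) (hℓS' : ℓ ∉ S') :
    restrictHecke' h k S hNS hS (heckeAlgebra.T hℓ hℓN hℓS) = heckeAlgebra.T hℓ hℓM hℓS' := by
  rw [restrictHecke', RingHom.comp_apply, restrictHecke_T h k S hNS hℓ hℓN hℓS hℓM]
  rfl

/-! ### ring homomorphisms out of the anemic Hecke algebra are determined by the `T_ℓ` -/

include hNS in
theorem heckeAlgebra_ringHom_ext {R : Type*} [Ring R] {f g : heckeAlgebra N k S →+* R}
    (hfg : ∀ (ℓ : ℕ) (hℓ : ℓ.Prime) (hℓN : ¬ ℓ ∣ N) (hℓS : ℓ ∉ S),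
      f (heckeAlgebra.T hℓ hℓN hℓS) = g (heckeAlgebra.T hℓ hℓN hℓS)) : f = g := by
  have key : f.toIntAlgHom = g.toIntAlgHom := by
    refine AlgHom.adjoin_ext ?_
    rintro t (⟨ℓ, hℓ, hℓN, hℓS, rfl⟩ | ⟨q, hqN, hq, hqS, rfl⟩)
    · exact hfg ℓ hℓ hℓN hℓS
    · exact absurd (hNS q hq hqN) hqS
  exact RingHom.ext fun t => DFunLike.congr_fun key t

end Restrict

end Fermat.Agent.S59lib.Nu

end
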