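/-
S59lib / Nu / Base (helper6): **the map `ν : 𝕋(N)_𝔪 → 𝕋(M)_𝔪'` between localised Hecke algebras**,
`M ∣ N`, induced by restriction to the old subspace `S₂(Γ₀(M)) ⊆ S₂(Γ₀(N))`.

Data: `M ∣ N`, sets `S' ⊆ S` with all primes dividing `N` in `S`, characters
`θN : heckeAlgebra N 2 S → k`, `θM : heckeAlgebra M 2 S' → k` with the same values on the `T_ℓ`, `ℓ ∉ S`.

* `nu : heckeLocal N S 𝒪 θN →ₐ[𝒪] heckeLocal M S' 𝒪 θM`;
* `nu_π`     : `ν (π_N t) = π_M (restrictHecke' t)`;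
* `nu_π_T`   : `ν (π_N T_ℓ) = π_M T_ℓ` for `ℓ ∉ S`;
* `nu_unique`: an `𝒪`-algebra homomorphism with the property `nu_π_T` is `ν`;
* `nu_isLocalHom`;
* `nu_trace_det`, `nu_charpoly`: for Hecke–Galois data `HN`, `HM` on the two localised Hecke algebras with the
  canonical structure maps, `tr ρ_M σ = ν (tr ρ_N σ)`, `det ρ_M σ = ν (det ρ_N σ)` for ALL `σ ∈ G_ℚ`.
-/
import Mathlib
import Fermat.Agent.S59lib.Nu.Restrict
import Fermat.Prelude.Def_CuspForm_HeckeLocal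
import Fermat.Agent.S58lib.Cmp.Charpoly

set_option autoImplicit false
set_option linter.unusedSectionVars false
set_option linter.unusedVariables false
set_option linter.style.haveILetI false

noncomputable section

namespace Fermat.Agent.S59lib.Nu

open CongruenceSubgroup CuspForm IsLocalRing Polynomial
open scoped TensorProduct

local notation "Qb" => AlgebraicClosure ℚ
local notation "GQ" => (AlgebraicClosure ℚ ≃ₐ[ℚ] AlgebraicClosure ℚ)

/-! ### a general fact: algebra maps out of an integral local algebra are local -/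

theorem isLocalHom_of_isIntegral {𝒪 A B : Type*} [CommRing 𝒪] [IsLocalRing 𝒪] [CommRing A]
    [IsLocalRing A] [CommRing B] [IsLocalRing B] [Algebra 𝒪 A] [Algebra 𝒪 B]
    [Algebra.IsIntegral 𝒪 A] [IsLocalHom (algebraMap 𝒪 B)] (φ : A →ₐ[𝒪] B) :
    IsLocalHom (φ : A →+* B) := by
  set P : Ideal A := (maximalIdeal B).comap (φ : A →+* B) with hP
  haveI : P.IsPrime := Ideal.comap_isPrime _ _
  have hcomap : P.comap (algebraMap 𝒪 A) = maximalIdeal 𝒪 := by
    rw [hP, Ideal.comap_comap, AlgHom.comp_algebraMap]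
    exact ((local_hom_TFAE (algebraMap 𝒪 B)).out 0 4).mp
      (inferInstance : IsLocalHom (algebraMap 𝒪 B))
  have hmax : P.IsMaximal :=
    Ideal.isMaximal_of_isIntegral_of_isMaximal_comap P
      (hcomap ▸ (maximalIdeal.isMaximal 𝒪))
  have hPeq : P = maximalIdeal A := eq_maximalIdeal hmax
  constructor
  intro a ha
  by_contra hna
  have ham : a ∈ P := hPeq ▸ (mem_maximalIdeal a).mpr hna
  exact (mem_maximalIdeal _).mp (Ideal.mem_comap.mp ham) ha

section Nu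

variable {M N : ℕ} [NeZero M] [NeZero N] (h : M ∣ N) (S S' : Set ℕ) (hS : S' ⊆ S)
  (hNS : ∀ q : ℕ, q.Prime → q ∣ N → q ∈ S)
  [hintN : Fact (HasIntegralStructure N 2)]
  (𝒪 : Type) [CommRing 𝒪] [IsDomain 𝒪] [IsDiscreteValuationRing 𝒪]
  [IsAdicComplete (maximalIdeal 𝒪) 𝒪]
  (θN : heckeAlgebra N 2 S →+* ResidueField 𝒪) (θM : heckeAlgebra M 2 S' →+* ResidueField 𝒪)

/-- the hypothesis that the two residual characters agree on the `T_ℓ`, `ℓ ∉ S` -/
def Compat : Prop :=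
  ∀ (ℓ : ℕ) (hℓ : ℓ.Prime) (hℓN : ¬ ℓ ∣ N) (hℓS : ℓ ∉ S) (hℓM : ¬ ℓ ∣ M) (hℓS' : ℓ ∉ S'),
    θN (heckeAlgebra.T hℓ hℓN hℓS) = θM (heckeAlgebra.T hℓ hℓM hℓS')

variable (hθ : Compat S S' 𝒪 θN θM)

include hθ in
theorem θN_eq_comp : θN = θM.comp (restrictHecke' h 2 S hNS hS) := by
  refine heckeAlgebra_ringHom_ext 2 S hNS fun ℓ hℓ hℓN hℓS => ?_
  have hℓM : ¬ ℓ ∣ M := fun hd => hℓN (hd.trans h)
  have hℓS' : ℓ ∉ S' := fun hm => hℓS (hS hm)
  rw [RingHom.comp_apply, restrictHecke'_T h 2 S hNS hS hℓ hℓN hℓS hℓM hℓS']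
  exact hθ ℓ hℓ hℓN hℓS hℓM hℓS'

/-- restriction on `𝒪 ⊗ 𝕋` -/
def tensorRestrict : (𝒪 ⊗[ℤ] ↥(heckeAlgebra N 2 S)) →ₐ[𝒪] (𝒪 ⊗[ℤ] ↥(heckeAlgebra M 2 S')) :=
  Algebra.TensorProduct.map (AlgHom.id 𝒪 𝒪) (restrictHecke' h 2 S hNS hS).toIntAlgHom

theorem tensorRestrict_tmul (a : 𝒪) (t : heckeAlgebra N 2 S) :
    tensorRestrict h S S' hS hNS 𝒪 (a ⊗ₜ t) = a ⊗ₜ (restrictHecke' h 2 S hNS hS t) := rfl

include hθ in
theorem residualCharacter_tensorRestrict (y : 𝒪 ⊗[ℤ] ↥(heckeAlgebra N 2 S)) :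
    residualCharacter M S' 𝒪 θM (tensorRestrict h S S' hS hNS 𝒪 y) =
      residualCharacter N S 𝒪 θN y := by
  induction y using TensorProduct.induction_on with
  | zero => rw [map_zero, map_zero, map_zero]
  | tmul a t =>
    rw [tensorRestrict_tmul, residualCharacter_tmul, residualCharacter_tmul,
      θN_eq_comp h S S' hS hNS 𝒪 θN θM hθ, RingHom.comp_apply]
  | add x y hx hy => rw [map_add, map_add, map_add, hx, hy]

/-- the lattice Hecke algebra is the Hecke algebra -/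
def latEquiv : ↥(heckeAlgebra N 2 S) ≃ₐ[ℤ] ↥(heckeLatticeAlgebra N S) :=
  AlgEquiv.ofBijective (latticeRestrictHom N S) (latticeRestrictHom_bijective N S hintN.out)

theorem latEquiv_apply (t : heckeAlgebra N 2 S) :
    latEquiv S t = latticeRestrictHom N S t := rfl

/-- restriction on the lattice Hecke algebras -/
def latRestrict : ↥(heckeLatticeAlgebra N S) →ₐ[ℤ] ↥(heckeLatticeAlgebra M S') :=
  (latticeRestrictHom M S').comp
    ((restrictHecke' h 2 S hNS hS).toIntAlgHom.comp (latEquiv S).symm.toAlgHom)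

theorem latRestrict_latticeRestrictHom (t : heckeAlgebra N 2 S) :
    latRestrict h S S' hS hNS (latticeRestrictHom N S t) =
      latticeRestrictHom M S' (restrictHecke' h 2 S hNS hS t) := by
  have key : (latEquiv S).symm (latticeRestrictHom N S t) = t :=
    (latEquiv S).symm_apply_apply t
  show latticeRestrictHom M S' (restrictHecke' h 2 S hNS hS
    ((latEquiv S).symm (latticeRestrictHom N S t))) = _
  rw [key]

/-- restriction on the base algebras `𝒪 ⊗ 𝕋^lat` -/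
def baseRestrict : heckeBaseAlgebra N S 𝒪 →ₐ[𝒪] heckeBaseAlgebra M S' 𝒪 :=
  (Algebra.TensorProduct.map (AlgHom.id 𝒪 𝒪) (latRestrict h S S' hS hNS) :
    (𝒪 ⊗[ℤ] ↥(heckeLatticeAlgebra N S)) →ₐ[𝒪] (𝒪 ⊗[ℤ] ↥(heckeLatticeAlgebra M S')))

theorem baseRestrict_latticeBaseChange (y : 𝒪 ⊗[ℤ] ↥(heckeAlgebra N 2 S)) :
    baseRestrict h S S' hS hNS 𝒪 (latticeBaseChange N S 𝒪 y) =
      latticeBaseChange M S' 𝒪 (tensorRestrict h S S' hS hNS 𝒪 y) := by
  induction y using TensorProduct.induction_on with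
  | zero => rw [map_zero, map_zero, map_zero, map_zero]
  | tmul a t =>
    rw [tensorRestrict_tmul, latticeBaseChange_tmul, latticeBaseChange_tmul]
    show (a ⊗ₜ[ℤ] latRestrict h S S' hS hNS (latticeRestrictHom N S t) :
      𝒪 ⊗[ℤ] ↥(heckeLatticeAlgebra M S')) = _
    rw [latRestrict_latticeRestrictHom]
  | add x y hx hy => rw [map_add, map_add, map_add, map_add, hx, hy]

include hθ in
theorem heckeLocalSubmonoid_le_comap :
    heckeLocalSubmonoid N S 𝒪 θN ≤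
      (heckeLocalSubmonoid M S' 𝒪 θM).comap (baseRestrict h S S' hS hNS 𝒪 : _ →+* _) := by
  rintro x ⟨y, hy, rfl⟩
  refine ⟨tensorRestrict h S S' hS hNS 𝒪 y, ?_,
    (baseRestrict_latticeBaseChange h S S' hS hNS 𝒪 y).symm⟩
  have hy' : y ∉ heckeCharKernel N S 𝒪 θN := Ideal.mem_primeCompl_iff.mp hy
  refine Ideal.mem_primeCompl_iff.mpr fun hmem => hy' ?_
  rw [mem_heckeCharKernel_iff] at hmem ⊢
  rwa [residualCharacter_tensorRestrict h S S' hS hNS 𝒪 θN θM hθ] at hmem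

end Nu

end Fermat.Agent.S59lib.Nu

end
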