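/-
S59lib / Nu / Main (helper6): **the map `ν : 𝕋(N)_𝔪 → 𝕋(M)_𝔪'` between localised Hecke algebras**,
`M ∣ N`, induced by restriction to the old subspace `S₂(Γ₀(M)) ⊆ S₂(Γ₀(N))`.

Data: `M ∣ N`, sets `S' ⊆ S` with all primes dividing `N` in `S`, characters
`θN : heckeAlgebra N 2 S → k`, `θM : heckeAlgebra M 2 S' → k` with the same values on the `T_ℓ`, `ℓ ∉ S`
(`hθ : Compat S S' 𝒪 θN θM`).

* `nu : heckeLocal N S 𝒪 θN →ₐ[𝒪] heckeLocal M S' 𝒪 θM`;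
* `nu_π`     : `ν (π_N t) = π_M (restrictHecke' t)`;
* `nu_π_T`   : `ν (π_N T_ℓ) = π_M T_ℓ` for `ℓ ∉ S`;
* `heckeLocal_algHom_ext`, `nu_unique`: an `𝒪`-algebra homomorphism with the property `nu_π_T` is `ν`;
* `nu_isLocalHom`;
* `nu_trace_det`, `nu_trace`, `nu_charpoly`: for Hecke–Galois data `HN`, `HM` on the two localised Hecke algebras
  with the canonical structure maps, `tr ρ_M σ = ν (tr ρ_N σ)`, `det ρ_M σ = ν (det ρ_N σ)` for ALL `σ ∈ G_ℚ`.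
-/
import Mathlib
import Fermat.Agent.S59lib.Nu.Base

set_option autoImplicit false
set_option linter.unusedSectionVars false
set_option linter.unusedVariables false
set_option linter.style.haveILetI false

noncomputable section

namespace Fermat.Agent.S59lib.Nu

open CongruenceSubgroup CuspForm IsLocalRing Polynomial
open scoped TensorProduct

local notation "Qb" => AlgebraicClosure ℚ
local notation "GQ" => (AlgebraicClosure ℚ ≃ₐ[ℚ] AlgebraicClosure ℚ)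

/-- localisation of a ring homomorphism, with everything explicit -/
def locMap {R₁ R₂ L₁ L₂ : Type} [CommRing R₁] [CommRing R₂] [CommRing L₁] [CommRing L₂]
    [Algebra R₁ L₁] [Algebra R₂ L₂] (M₁ : Submonoid R₁) (M₂ : Submonoid R₂)
    [IsLocalization M₁ L₁] [IsLocalization M₂ L₂] (f : R₁ →+* R₂) (hf : M₁ ≤ M₂.comap f) :
    L₁ →+* L₂ := IsLocalization.map L₂ f hf

theorem locMap_eq {R₁ R₂ L₁ L₂ : Type} [CommRing R₁] [CommRing R₂] [CommRing L₁] [CommRing L₂]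
    [Algebra R₁ L₁] [Algebra R₂ L₂] (M₁ : Submonoid R₁) (M₂ : Submonoid R₂)
    [IsLocalization M₁ L₁] [IsLocalization M₂ L₂] (f : R₁ →+* R₂) (hf : M₁ ≤ M₂.comap f)
    (x : R₁) : locMap (L₁ := L₁) (L₂ := L₂) M₁ M₂ f hf (algebraMap R₁ L₁ x) =
      algebraMap R₂ L₂ (f x) := IsLocalization.map_eq hf x

section Nu

variable {M N : ℕ} [NeZero M] [NeZero N] (h : M ∣ N) (S S' : Set ℕ) (hS : S' ⊆ S)
  (hNS : ∀ q : ℕ, q.Prime → q ∣ N → q ∈ S)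
  [hintN : Fact (HasIntegralStructure N 2)]
  (𝒪 : Type) [CommRing 𝒪] [IsDomain 𝒪] [IsDiscreteValuationRing 𝒪]
  [IsAdicComplete (maximalIdeal 𝒪) 𝒪]
  (θN : heckeAlgebra N 2 S →+* ResidueField 𝒪) (θM : heckeAlgebra M 2 S' →+* ResidueField 𝒪)
variable (hθ : Compat S S' 𝒪 θN θM)

/-- `baseRestrict` as a ring homomorphism -/
def baseRestrictRingHom : heckeBaseAlgebra N S 𝒪 →+* heckeBaseAlgebra M S' 𝒪 :=
  (baseRestrict h S S' hS hNS 𝒪 : heckeBaseAlgebra N S 𝒪 →+* heckeBaseAlgebra M S' 𝒪)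

theorem baseRestrictRingHom_apply (x : heckeBaseAlgebra N S 𝒪) :
    baseRestrictRingHom h S S' hS hNS 𝒪 x = baseRestrict h S S' hS hNS 𝒪 x := rfl

/-- **the map `ν`** as a ring homomorphism -/
def nuRingHom : heckeLocal N S 𝒪 θN →+* heckeLocal M S' 𝒪 θM :=
  locMap (R₁ := heckeBaseAlgebra N S 𝒪) (R₂ := heckeBaseAlgebra M S' 𝒪)
    (L₁ := heckeLocal N S 𝒪 θN) (L₂ := heckeLocal M S' 𝒪 θM)
    (heckeLocalSubmonoid N S 𝒪 θN) (heckeLocalSubmonoid M S' 𝒪 θM)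
    (baseRestrictRingHom h S S' hS hNS 𝒪)
    (heckeLocalSubmonoid_le_comap h S S' hS hNS 𝒪 θN θM hθ)

theorem nuRingHom_algebraMap (x : heckeBaseAlgebra N S 𝒪) :
    nuRingHom h S S' hS hNS 𝒪 θN θM hθ
        (algebraMap (heckeBaseAlgebra N S 𝒪) (heckeLocal N S 𝒪 θN) x) =
      algebraMap (heckeBaseAlgebra M S' 𝒪) (heckeLocal M S' 𝒪 θM)
        (baseRestrict h S S' hS hNS 𝒪 x) :=
  locMap_eq (R₁ := heckeBaseAlgebra N S 𝒪) (R₂ := heckeBaseAlgebra M S' 𝒪)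
    (L₁ := heckeLocal N S 𝒪 θN) (L₂ := heckeLocal M S' 𝒪 θM)
    (heckeLocalSubmonoid N S 𝒪 θN) (heckeLocalSubmonoid M S' 𝒪 θM)
    (baseRestrictRingHom h S S' hS hNS 𝒪)
    (heckeLocalSubmonoid_le_comap h S S' hS hNS 𝒪 θN θM hθ) x

/-- **the map `ν : 𝕋(N)_𝔪 → 𝕋(M)_𝔪'`** -/
def nu : heckeLocal N S 𝒪 θN →ₐ[𝒪] heckeLocal M S' 𝒪 θM :=
  { nuRingHom h S S' hS hNS 𝒪 θN θM hθ with
    commutes' := fun a => by
      show nuRingHom h S S' hS hNS 𝒪 θN θM hθ (algebraMap 𝒪 (heckeLocal N S 𝒪 θN) a) = _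
      rw [IsScalarTower.algebraMap_apply 𝒪 (heckeBaseAlgebra N S 𝒪) (heckeLocal N S 𝒪 θN),
        nuRingHom_algebraMap, AlgHom.commutes,
        ← IsScalarTower.algebraMap_apply 𝒪 (heckeBaseAlgebra M S' 𝒪) (heckeLocal M S' 𝒪 θM)] }

theorem nu_algebraMap (x : heckeBaseAlgebra N S 𝒪) :
    nu h S S' hS hNS 𝒪 θN θM hθ (algebraMap _ (heckeLocal N S 𝒪 θN) x) =
      algebraMap _ (heckeLocal M S' 𝒪 θM) (baseRestrict h S S' hS hNS 𝒪 x) :=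
  nuRingHom_algebraMap h S S' hS hNS 𝒪 θN θM hθ x

/-- `ν ∘ π_N = π_M ∘ restriction` -/
theorem nu_π (t : heckeAlgebra N 2 S) :
    nu h S S' hS hNS 𝒪 θN θM hθ (heckeLocal.π N S 𝒪 θN t) =
      heckeLocal.π M S' 𝒪 θM (restrictHecke' h 2 S hNS hS t) := by
  show nu h S S' hS hNS 𝒪 θN θM hθ (algebraMap _ (heckeLocal N S 𝒪 θN)
      (latticeBaseChange N S 𝒪 ((1 : 𝒪) ⊗ₜ t))) =
    algebraMap _ (heckeLocal M S' 𝒪 θM)
      (latticeBaseChange M S' 𝒪 ((1 : 𝒪) ⊗ₜ (restrictHecke' h 2 S hNS hS t)))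
  rw [nu_algebraMap, baseRestrict_latticeBaseChange, tensorRestrict_tmul]

/-- **`ν (T_ℓ) = T_ℓ`** -/
theorem nu_π_T {ℓ : ℕ} (hℓ : ℓ.Prime) (hℓN : ¬ ℓ ∣ N) (hℓS : ℓ ∉ S) (hℓM : ¬ ℓ ∣ M)
    (hℓS' : ℓ ∉ S') :
    nu h S S' hS hNS 𝒪 θN θM hθ (heckeLocal.π N S 𝒪 θN (heckeAlgebra.T hℓ hℓN hℓS)) =
      heckeLocal.π M S' 𝒪 θM (heckeAlgebra.T hℓ hℓM hℓS') := by
  rw [nu_π, restrictHecke'_T h 2 S hNS hS hℓ hℓN hℓS hℓM hℓS']

/-! ### uniqueness -/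

omit hintN in
include hNS in
/-- **algebra maps out of the localised Hecke algebra are determined by the images of the `T_ℓ`** -/
theorem heckeLocal_algHom_ext {B : Type*} [CommRing B] [Algebra 𝒪 B]
    {f g : heckeLocal N S 𝒪 θN →ₐ[𝒪] B}
    (hfg : ∀ (ℓ : ℕ) (hℓ : ℓ.Prime) (hℓN : ¬ ℓ ∣ N) (hℓS : ℓ ∉ S),
      f (heckeLocal.π N S 𝒪 θN (heckeAlgebra.T hℓ hℓN hℓS)) =
        g (heckeLocal.π N S 𝒪 θN (heckeAlgebra.T hℓ hℓN hℓS))) : f = g := by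
  have hπ : (f : heckeLocal N S 𝒪 θN →+* B).comp (heckeLocal.π N S 𝒪 θN) =
      (g : heckeLocal N S 𝒪 θN →+* B).comp (heckeLocal.π N S 𝒪 θN) :=
    heckeAlgebra_ringHom_ext 2 S hNS fun ℓ hℓ hℓN hℓS => hfg ℓ hℓ hℓN hℓS
  have hbase : ∀ x : heckeBaseAlgebra N S 𝒪,
      f (algebraMap _ (heckeLocal N S 𝒪 θN) x) = g (algebraMap _ (heckeLocal N S 𝒪 θN) x) := by
    intro x
    obtain ⟨y, rfl⟩ := latticeBaseChange_surjective N S 𝒪 x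
    induction y using TensorProduct.induction_on with
    | zero => rw [map_zero, map_zero, map_zero, map_zero]
    | tmul a t =>
      have h1 : (a ⊗ₜ[ℤ] t : 𝒪 ⊗[ℤ] ↥(heckeAlgebra N 2 S)) =
          algebraMap 𝒪 _ a * ((1 : 𝒪) ⊗ₜ[ℤ] t) := by
        rw [Algebra.TensorProduct.algebraMap_apply, Algebra.algebraMap_self, RingHom.id_apply,
          Algebra.TensorProduct.tmul_mul_tmul, mul_one, one_mul]
      have h2 : ∀ F : heckeLocal N S 𝒪 θN →ₐ[𝒪] B,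
          F (algebraMap _ (heckeLocal N S 𝒪 θN) (latticeBaseChange N S 𝒪 (a ⊗ₜ[ℤ] t))) =
            algebraMap 𝒪 B a * (F : heckeLocal N S 𝒪 θN →+* B).comp (heckeLocal.π N S 𝒪 θN) t := by
        intro F
        rw [h1, map_mul, map_mul, map_mul, latticeBaseChange_algebraMap,
          ← IsScalarTower.algebraMap_apply 𝒪 (heckeBaseAlgebra N S 𝒪) (heckeLocal N S 𝒪 θN),
          AlgHom.commutes]
        rfl
      rw [h2 f, h2 g, hπ]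
    | add x y hx hy => rw [map_add, map_add, map_add, map_add, hx, hy]
  have hring : (f : heckeLocal N S 𝒪 θN →+* B) = (g : heckeLocal N S 𝒪 θN →+* B) :=
    IsLocalization.ringHom_ext (heckeLocalSubmonoid N S 𝒪 θN) (RingHom.ext hbase)
  exact AlgHom.ext fun x => RingHom.congr_fun hring x

/-- **uniqueness of `ν`** -/
theorem nu_unique (ν' : heckeLocal N S 𝒪 θN →ₐ[𝒪] heckeLocal M S' 𝒪 θM)
    (hν' : ∀ (ℓ : ℕ) (hℓ : ℓ.Prime) (hℓN : ¬ ℓ ∣ N) (hℓS : ℓ ∉ S) (hℓM : ¬ ℓ ∣ M) (hℓS' : ℓ ∉ S'),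
      ν' (heckeLocal.π N S 𝒪 θN (heckeAlgebra.T hℓ hℓN hℓS)) =
        heckeLocal.π M S' 𝒪 θM (heckeAlgebra.T hℓ hℓM hℓS')) :
    ν' = nu h S S' hS hNS 𝒪 θN θM hθ := by
  refine heckeLocal_algHom_ext S hNS 𝒪 θN fun ℓ hℓ hℓN hℓS => ?_
  have hℓM : ¬ ℓ ∣ M := fun hd => hℓN (hd.trans h)
  have hℓS' : ℓ ∉ S' := fun hm => hℓS (hS hm)
  rw [hν' ℓ hℓ hℓN hℓS hℓM hℓS', nu_π_T h S S' hS hNS 𝒪 θN θM hθ hℓ hℓN hℓS hℓM hℓS']

/-! ### `ν` is local, and compatible with the Galois representations -/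

section Local

variable [hintM : Fact (HasIntegralStructure M 2)]

theorem nu_isLocalHom :
    IsLocalHom (nu h S S' hS hNS 𝒪 θN θM hθ : heckeLocal N S 𝒪 θN →+* heckeLocal M S' 𝒪 θM) :=
  isLocalHom_of_isIntegral (𝒪 := 𝒪) _

/-- **`ν` matches traces and determinants of the Hecke–Galois representations** (Chebotarev) -/
theorem nu_trace_det (hSfin : S.Finite)
    (HN : HeckeGaloisRepDatum N S 𝒪 θN (heckeLocal N S 𝒪 θN))
    (hHN : HN.π = heckeLocal.π N S 𝒪 θN)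
    (HM : HeckeGaloisRepDatum M S' 𝒪 θM (heckeLocal M S' 𝒪 θM))
    (hHM : HM.π = heckeLocal.π M S' 𝒪 θM) (σ : GQ) :
    LinearMap.trace _ HM.ρ.V (HM.ρ.ρ σ) =
        nu h S S' hS hNS 𝒪 θN θM hθ (LinearMap.trace _ HN.ρ.V (HN.ρ.ρ σ)) ∧
      LinearMap.det (HM.ρ.ρ σ) = nu h S S' hS hNS 𝒪 θN θM hθ (LinearMap.det (HN.ρ.ρ σ)) := by
  haveI := nu_isLocalHom h S S' hS hNS 𝒪 θN θM hθ
  refine Fermat.Agent.S58lib.Cmp.trace_det_map_eq_of_frobenius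
    (nu h S S' hS hNS 𝒪 θN θM hθ : heckeLocal N S 𝒪 θN →+* heckeLocal M S' 𝒪 θM)
    (fun a ha => map_nonunit _ a ha) HN.ρ HM.ρ hSfin.toFinset ?_ σ
  intro ℓ hℓ hℓS₀ A hA φ hφ
  have hℓS : ℓ ∉ S := fun hm => hℓS₀ (hSfin.mem_toFinset.mpr hm)
  have hℓN : ¬ ℓ ∣ N := fun hd => hℓS (hNS ℓ hℓ hd)
  have hℓM : ¬ ℓ ∣ M := fun hd => hℓN (hd.trans h)
  have hℓS' : ℓ ∉ S' := fun hm => hℓS (hS hm)
  rw [HN.charpoly_frob ℓ hℓ hℓN hℓS A hA φ hφ, HM.charpoly_frob ℓ hℓ hℓM hℓS' A hA φ hφ, hHN, hHM]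
  simp only [Polynomial.map_add, Polynomial.map_sub, Polynomial.map_mul, Polynomial.map_pow,
    Polynomial.map_X, Polynomial.map_C, Polynomial.map_natCast, map_natCast, RingHom.coe_coe,
    nu_π_T h S S' hS hNS 𝒪 θN θM hθ hℓ hℓN hℓS hℓM hℓS']

/-- the same for `GaloisRepAdic.trace` -/
theorem nu_trace (hSfin : S.Finite)
    (HN : HeckeGaloisRepDatum N S 𝒪 θN (heckeLocal N S 𝒪 θN))
    (hHN : HN.π = heckeLocal.π N S 𝒪 θN)
    (HM : HeckeGaloisRepDatum M S' 𝒪 θM (heckeLocal M S' 𝒪 θM))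
    (hHM : HM.π = heckeLocal.π M S' 𝒪 θM) (σ : GQ) :
    HM.ρ.trace σ = nu h S S' hS hNS 𝒪 θN θM hθ (HN.ρ.trace σ) :=
  (nu_trace_det h S S' hS hNS 𝒪 θN θM hθ hSfin HN hHN HM hHM σ).1

/-- characteristic polynomials -/
theorem nu_charpoly (hSfin : S.Finite)
    (HN : HeckeGaloisRepDatum N S 𝒪 θN (heckeLocal N S 𝒪 θN))
    (hHN : HN.π = heckeLocal.π N S 𝒪 θN)
    (HM : HeckeGaloisRepDatum M S' 𝒪 θM (heckeLocal M S' 𝒪 θM))
    (hHM : HM.π = heckeLocal.π M S' 𝒪 θM) (σ : GQ) :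
    LinearMap.charpoly (HM.ρ.ρ σ) =
      (LinearMap.charpoly (HN.ρ.ρ σ)).map
        (nu h S S' hS hNS 𝒪 θN θM hθ : heckeLocal N S 𝒪 θN →+* heckeLocal M S' 𝒪 θM) := by
  haveI := nu_isLocalHom h S S' hS hNS 𝒪 θN θM hθ
  refine Fermat.Agent.S58lib.Cmp.charpoly_map_eq_of_frobenius
    (nu h S S' hS hNS 𝒪 θN θM hθ : heckeLocal N S 𝒪 θN →+* heckeLocal M S' 𝒪 θM)
    (fun a ha => map_nonunit _ a ha) HN.ρ HM.ρ hSfin.toFinset ?_ σ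
  intro ℓ hℓ hℓS₀ A hA φ hφ
  have hℓS : ℓ ∉ S := fun hm => hℓS₀ (hSfin.mem_toFinset.mpr hm)
  have hℓN : ¬ ℓ ∣ N := fun hd => hℓS (hNS ℓ hℓ hd)
  have hℓM : ¬ ℓ ∣ M := fun hd => hℓN (hd.trans h)
  have hℓS' : ℓ ∉ S' := fun hm => hℓS (hS hm)
  rw [HN.charpoly_frob ℓ hℓ hℓN hℓS A hA φ hφ, HM.charpoly_frob ℓ hℓ hℓM hℓS' A hA φ hφ, hHN, hHM]
  simp only [Polynomial.map_add, Polynomial.map_sub, Polynomial.map_mul, Polynomial.map_pow,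
    Polynomial.map_X, Polynomial.map_C, Polynomial.map_natCast, map_natCast, RingHom.coe_coe,
    nu_π_T h S S' hS hNS 𝒪 θN θM hθ hℓ hℓN hℓS hℓM hℓS']

end Local

end Nu

end Fermat.Agent.S59lib.Nu

end
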