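/-
S59lib / Nu / Compat (helper6): **the compatibility hypothesis of `ν` from the Galois side**.

If `θ : 𝕋(N)^S → k` carries a Hecke–Galois datum `H` and `θ(T_ℓ) = a_ℓ` for almost all `ℓ`, where the `a_ℓ` are the
Frobenius traces of a residual representation `ρ₀` over `𝔽_p`, then `θ(T_ℓ) = tr ρ₀(Frob_ℓ)` for ALL `ℓ ∉ S`
(`theta_T_eq_trace`; Chebotarev through `S43lib.B3.heckeDatum_residual_charpoly`).  Hence two such characters at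
levels `M ∣ N` (sets `S' ⊆ S`) are compatible in the sense of `Nu.Compat` (`compat_of_data`).
-/
import Mathlib
import Fermat.Agent.S59lib.Nu.Main
import Fermat.Agent.S43lib.B3.HeckeTr
import Fermat.Agent.Helper5.FrobExists

set_option autoImplicit false
set_option linter.unusedSectionVars false
set_option linter.unusedVariables false
set_option linter.style.haveILetI false

noncomputable section

namespace Fermat.Agent.S59lib.Nu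

open CongruenceSubgroup CuspForm IsLocalRing Polynomial Fermat.Agent.S43lib.B3
open scoped TensorProduct

local notation "Qb" => AlgebraicClosure ℚ
local notation "GQ" => (AlgebraicClosure ℚ ≃ₐ[ℚ] AlgebraicClosure ℚ)

section Theta

variable {p : ℕ} [hpf : Fact p.Prime] {N : ℕ} [NeZero N] {S : Finset ℕ}
  {𝒪 : Type} [CommRing 𝒪] [IsDomain 𝒪] [IsDiscreteValuationRing 𝒪]
  [IsAdicComplete (maximalIdeal 𝒪) 𝒪] [Algebra (ZMod p) (ResidueField 𝒪)]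
  {θ : heckeAlgebra N 2 (↑S : Set ℕ) →+* ResidueField 𝒪}
  {T : Type} [CommRing T] [IsLocalRing T] [IsNoetherianRing T]
  [IsAdicComplete (maximalIdeal T) T] [Algebra 𝒪 T] [IsLocalHom (algebraMap 𝒪 T)]
  [Module.Finite 𝒪 T] [Module.Free 𝒪 T]

/-- **`θ(T_ℓ) = tr ρ₀(Frob_ℓ)` for every `ℓ ∉ S`** -/
theorem theta_T_eq_trace (H : HeckeGaloisRepDatum N (↑S : Set ℕ) 𝒪 θ T)
    (ρ₀ : ResidualGaloisRep (ZMod p)) (a : ℕ → ℤ) (S₀ : Finset ℕ)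
    (h₀ : ∀ ℓ : ℕ, ℓ.Prime → ℓ ∉ S₀ → ∀ A : ValuationSubring Qb, A.LiesOverPrime ℓ →
      ∀ φ : GQ, A.IsFrobeniusAt φ ℓ →
        LinearMap.charpoly (ρ₀.ρ φ) =
          X ^ 2 - C ((a ℓ : ℤ) : ZMod p) * X + C ((ℓ : ℕ) : ZMod p))
    (hθ : ∀ (ℓ : ℕ) (hℓ : ℓ.Prime) (hℓN : ¬ ℓ ∣ N) (hℓS : ℓ ∉ (↑S : Set ℕ)), ℓ ∉ S₀ →
      θ (heckeAlgebra.T hℓ hℓN hℓS) = ((a ℓ : ℤ) : ResidueField 𝒪))
    {ℓ : ℕ} (hℓ : ℓ.Prime) (hℓN : ¬ ℓ ∣ N) (hℓS : ℓ ∉ (↑S : Set ℕ))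
    (A : ValuationSubring Qb) (hA : A.LiesOverPrime ℓ) (φ : GQ) (hφ : A.IsFrobeniusAt φ ℓ) :
    θ (heckeAlgebra.T hℓ hℓN hℓS) =
      algebraMap (ZMod p) (ResidueField 𝒪) (LinearMap.trace (ZMod p) ρ₀.V (ρ₀.ρ φ)) := by
  have h1 := heckeDatum_residual_charpoly H ρ₀ a S₀ h₀ hθ φ
  rw [charpoly_res_baseChangeAlong, charpoly_res_baseChange] at h1
  have h2 : LinearMap.charpoly (H.ρ.residual.ρ φ) =
      (LinearMap.charpoly (H.ρ.ρ φ)).map (residue T) := by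
    show LinearMap.charpoly ((H.ρ.ρ φ).baseChange (ResidueField T)) = _
    rw [LinearMap.charpoly_baseChange]
    rfl
  rw [h2, H.charpoly_frob ℓ hℓ hℓN hℓS A hA φ hφ,
    Fermat.Agent.S34lib.charpoly_eq_of_finrank_two ρ₀.finrank_eq] at h1
  simp only [Polynomial.map_add, Polynomial.map_sub, Polynomial.map_mul, Polynomial.map_pow,
    Polynomial.map_X, Polynomial.map_C] at h1
  have h3 := congrArg (fun P : (ResidueField T)[X] => P.coeff 1) h1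
  simp only [coeff_add, coeff_sub, coeff_X_pow, coeff_C_mul, coeff_X_one, coeff_C_succ,
    OfNat.one_ne_ofNat, if_false, mul_one, add_zero, zero_sub, neg_inj] at h3
  rw [H.residue_π] at h3
  exact (ResidueField.map (algebraMap 𝒪 T)).injective h3

end Theta

section Compat

variable {p : ℕ} [hpf : Fact p.Prime] {M N : ℕ} [NeZero M] [NeZero N] {S S' : Finset ℕ}
  {𝒪 : Type} [CommRing 𝒪] [IsDomain 𝒪] [IsDiscreteValuationRing 𝒪]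
  [IsAdicComplete (maximalIdeal 𝒪) 𝒪] [Algebra (ZMod p) (ResidueField 𝒪)]
  {θN : heckeAlgebra N 2 (↑S : Set ℕ) →+* ResidueField 𝒪}
  {θM : heckeAlgebra M 2 (↑S' : Set ℕ) →+* ResidueField 𝒪}
  {TN : Type} [CommRing TN] [IsLocalRing TN] [IsNoetherianRing TN]
  [IsAdicComplete (maximalIdeal TN) TN] [Algebra 𝒪 TN] [IsLocalHom (algebraMap 𝒪 TN)]
  [Module.Finite 𝒪 TN] [Module.Free 𝒪 TN]
  {TM : Type} [CommRing TM] [IsLocalRing TM] [IsNoetherianRing TM]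
  [IsAdicComplete (maximalIdeal TM) TM] [Algebra 𝒪 TM] [IsLocalHom (algebraMap 𝒪 TM)]
  [Module.Finite 𝒪 TM] [Module.Free 𝒪 TM]

/-- **two Hecke characters attached to the same `ρ₀` are compatible** -/
theorem compat_of_data (HN : HeckeGaloisRepDatum N (↑S : Set ℕ) 𝒪 θN TN)
    (HM : HeckeGaloisRepDatum M (↑S' : Set ℕ) 𝒪 θM TM)
    (ρ₀ : ResidualGaloisRep (ZMod p)) (a : ℕ → ℤ) (S₀ : Finset ℕ)
    (h₀ : ∀ ℓ : ℕ, ℓ.Prime → ℓ ∉ S₀ → ∀ A : ValuationSubring Qb, A.LiesOverPrime ℓ →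
      ∀ φ : GQ, A.IsFrobeniusAt φ ℓ →
        LinearMap.charpoly (ρ₀.ρ φ) =
          X ^ 2 - C ((a ℓ : ℤ) : ZMod p) * X + C ((ℓ : ℕ) : ZMod p))
    (hθN : ∀ (ℓ : ℕ) (hℓ : ℓ.Prime) (hℓN : ¬ ℓ ∣ N) (hℓS : ℓ ∉ (↑S : Set ℕ)), ℓ ∉ S₀ →
      θN (heckeAlgebra.T hℓ hℓN hℓS) = ((a ℓ : ℤ) : ResidueField 𝒪))
    (hθM : ∀ (ℓ : ℕ) (hℓ : ℓ.Prime) (hℓM : ¬ ℓ ∣ M) (hℓS' : ℓ ∉ (↑S' : Set ℕ)), ℓ ∉ S₀ →
      θM (heckeAlgebra.T hℓ hℓM hℓS') = ((a ℓ : ℤ) : ResidueField 𝒪)) :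
    Compat (↑S : Set ℕ) (↑S' : Set ℕ) 𝒪 θN θM := by
  intro ℓ hℓ hℓN hℓS hℓM hℓS'
  obtain ⟨A, φ, hA, hφ⟩ := Fermat.Agent.Helper5.exists_isFrobeniusAt ℓ hℓ
  rw [theta_T_eq_trace HN ρ₀ a S₀ h₀ hθN hℓ hℓN hℓS A hA φ hφ,
    theta_T_eq_trace HM ρ₀ a S₀ h₀ hθM hℓ hℓM hℓS' A hA φ hφ]

end Compat

end Fermat.Agent.S59lib.Nu

end
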