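/-
S59lib / Nu / Equiv (helper6): **`ν_* ρ_N ≅ ρ_M`**.

For Hecke–Galois data `HN`, `HM` on `heckeLocal N S 𝒪 θN`, `heckeLocal M S' 𝒪 θM` (canonical structure maps), the
base change of `ρ_N` along `ν` is equivalent to `ρ_M`: equal traces (`Nu.nu_trace`, Chebotarev) + Carayol's
theorem (`Min.isEquiv_of_trace_eq`, helper5) + residual absolute irreducibility.
-/
import Mathlib
import Fermat.Agent.S59lib.Nu.Main
import Fermat.Agent.S59lib.Min.Carayol
import Fermat.Agent.S43lib.B3.EndGal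
import Fermat.Agent.S43lib.Mod4.Compat

set_option autoImplicit false
set_option linter.unusedSectionVars false
set_option linter.unusedVariables false
set_option linter.style.haveILetI false

noncomputable section

namespace Fermat.Agent.S59lib.Nu

open CongruenceSubgroup CuspForm IsLocalRing Polynomial
open scoped TensorProduct

local notation "GQ" => (AlgebraicClosure ℚ ≃ₐ[ℚ] AlgebraicClosure ℚ)

variable {M N : ℕ} [NeZero M] [NeZero N] (h : M ∣ N) (S S' : Set ℕ) (hS : S' ⊆ S)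
  (hNS : ∀ q : ℕ, q.Prime → q ∣ N → q ∈ S)
  [hintN : Fact (HasIntegralStructure N 2)] [hintM : Fact (HasIntegralStructure M 2)]
  (𝒪 : Type) [CommRing 𝒪] [IsDomain 𝒪] [IsDiscreteValuationRing 𝒪]
  [IsAdicComplete (maximalIdeal 𝒪) 𝒪]
  (θN : heckeAlgebra N 2 S →+* ResidueField 𝒪) (θM : heckeAlgebra M 2 S' →+* ResidueField 𝒪)
  (hθ : Compat S S' 𝒪 θN θM)

/-- **`ν_* ρ_N ≅ ρ_M`** -/
theorem nu_isEquiv (hSfin : S.Finite)
    (HN : HeckeGaloisRepDatum N S 𝒪 θN (heckeLocal N S 𝒪 θN))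
    (hHN : HN.π = heckeLocal.π N S 𝒪 θN)
    (HM : HeckeGaloisRepDatum M S' 𝒪 θM (heckeLocal M S' 𝒪 θM))
    (hHM : HM.π = heckeLocal.π M S' 𝒪 θM)
    (hν : IsLocalHom
      (nu h S S' hS hNS 𝒪 θN θM hθ : heckeLocal N S 𝒪 θN →+* heckeLocal M S' 𝒪 θM)) :
    (HN.ρ.baseChangeAlong
      (nu h S S' hS hNS 𝒪 θN θM hθ : heckeLocal N S 𝒪 θN →+* heckeLocal M S' 𝒪 θM) hν).IsEquiv
      HM.ρ := by
  refine Fermat.Agent.S59lib.Min.isEquiv_of_trace_eq _ _
    (Fermat.Agent.S43lib.B3.heckeDatum_absIrr_baseChangeAlong HN _ hν) HM.residual_absIrr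
    fun g => ?_
  rw [Fermat.Agent.S43lib.Mod4.trace_baseChangeAlong,
    nu_trace h S S' hS hNS 𝒪 θN θM hθ hSfin HN hHN HM hHM g]
  rfl

end Fermat.Agent.S59lib.Nu

end
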