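/-
S59lib / Nu / Final (helper6): **the map `ν : T_Σ → T_∅` packaged for the R = T wiring**.

`exists_nu_of_data`: levels `M ∣ N`, finite sets `S' ⊆ S` (all primes of `N` in `S`), Hecke characters `θN`, `θM` with
`θ(T_ℓ) = a_ℓ` for almost all `ℓ` (the `a_ℓ` = Frobenius traces of one residual representation `ρ₀` over `𝔽_p`),
Hecke–Galois data `HN`, `HM` on the localised Hecke algebras with the canonical structure maps.  Then there is an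
`𝒪`-algebra homomorphism `ν : heckeLocal N S 𝒪 θN → heckeLocal M S' 𝒪 θM`, local, with `ν(T_ℓ) = T_ℓ` (`ℓ ∉ S`),
`tr ρ_M = ν ∘ tr ρ_N` on all of `G_ℚ`, and `ν_* ρ_N ≅ ρ_M`; it is the unique `𝒪`-algebra map with `ν(T_ℓ) = T_ℓ`.
-/
import Mathlib
import Fermat.Agent.S59lib.Nu.Equiv
import Fermat.Agent.S59lib.Nu.Compat

set_option autoImplicit false
set_option linter.unusedSectionVars false
set_option linter.unusedVariables false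
set_option linter.style.haveILetI false

noncomputable section

namespace Fermat.Agent.S59lib.Nu

open CongruenceSubgroup CuspForm IsLocalRing Polynomial
open scoped TensorProduct

local notation "Qb" => AlgebraicClosure ℚ
local notation "GQ" => (AlgebraicClosure ℚ ≃ₐ[ℚ] AlgebraicClosure ℚ)

variable {p : ℕ} [hpf : Fact p.Prime] {M N : ℕ} [NeZero M] [NeZero N] {S S' : Finset ℕ}
  [hintN : Fact (HasIntegralStructure N 2)] [hintM : Fact (HasIntegralStructure M 2)]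
  {𝒪 : Type} [CommRing 𝒪] [IsDomain 𝒪] [IsDiscreteValuationRing 𝒪]
  [IsAdicComplete (maximalIdeal 𝒪) 𝒪] [Algebra (ZMod p) (ResidueField 𝒪)]
  {θN : heckeAlgebra N 2 (↑S : Set ℕ) →+* ResidueField 𝒪}
  {θM : heckeAlgebra M 2 (↑S' : Set ℕ) →+* ResidueField 𝒪}

/-- **the map `ν : T_Σ → T_∅`** -/
theorem exists_nu_of_data (h : M ∣ N) (hS : S' ⊆ S)
    (hNS : ∀ q : ℕ, q.Prime → q ∣ N → q ∈ S)
    (HN : HeckeGaloisRepDatum N (↑S : Set ℕ) 𝒪 θN (heckeLocal N (↑S : Set ℕ) 𝒪 θN))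
    (hHN : HN.π = heckeLocal.π N (↑S : Set ℕ) 𝒪 θN)
    (HM : HeckeGaloisRepDatum M (↑S' : Set ℕ) 𝒪 θM (heckeLocal M (↑S' : Set ℕ) 𝒪 θM))
    (hHM : HM.π = heckeLocal.π M (↑S' : Set ℕ) 𝒪 θM)
    (ρ₀ : ResidualGaloisRep (ZMod p)) (a : ℕ → ℤ) (S₀ : Finset ℕ)
    (h₀ : ∀ ℓ : ℕ, ℓ.Prime → ℓ ∉ S₀ → ∀ A : ValuationSubring Qb, A.LiesOverPrime ℓ →
      ∀ φ : GQ, A.IsFrobeniusAt φ ℓ →
        LinearMap.charpoly (ρ₀.ρ φ) =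
          X ^ 2 - C ((a ℓ : ℤ) : ZMod p) * X + C ((ℓ : ℕ) : ZMod p))
    (hθN : ∀ (ℓ : ℕ) (hℓ : ℓ.Prime) (hℓN : ¬ ℓ ∣ N) (hℓS : ℓ ∉ (↑S : Set ℕ)), ℓ ∉ S₀ →
      θN (heckeAlgebra.T hℓ hℓN hℓS) = ((a ℓ : ℤ) : ResidueField 𝒪))
    (hθM : ∀ (ℓ : ℕ) (hℓ : ℓ.Prime) (hℓM : ¬ ℓ ∣ M) (hℓS' : ℓ ∉ (↑S' : Set ℕ)), ℓ ∉ S₀ →
      θM (heckeAlgebra.T hℓ hℓM hℓS') = ((a ℓ : ℤ) : ResidueField 𝒪)) :
    ∃ (ν : heckeLocal N (↑S : Set ℕ) 𝒪 θN →ₐ[𝒪] heckeLocal M (↑S' : Set ℕ) 𝒪 θM)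
      (hν : IsLocalHom (ν : heckeLocal N (↑S : Set ℕ) 𝒪 θN →+* heckeLocal M (↑S' : Set ℕ) 𝒪 θM)),
      (∀ (ℓ : ℕ) (hℓ : ℓ.Prime) (hℓN : ¬ ℓ ∣ N) (hℓS : ℓ ∉ (↑S : Set ℕ)) (hℓM : ¬ ℓ ∣ M)
        (hℓS' : ℓ ∉ (↑S' : Set ℕ)),
        ν (heckeLocal.π N (↑S : Set ℕ) 𝒪 θN (heckeAlgebra.T hℓ hℓN hℓS)) =
          heckeLocal.π M (↑S' : Set ℕ) 𝒪 θM (heckeAlgebra.T hℓ hℓM hℓS')) ∧
      (∀ σ : GQ, HM.ρ.trace σ = ν (HN.ρ.trace σ)) ∧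
      (∀ σ : GQ, LinearMap.det (HM.ρ.ρ σ) = ν (LinearMap.det (HN.ρ.ρ σ))) ∧
      (HN.ρ.baseChangeAlong
        (ν : heckeLocal N (↑S : Set ℕ) 𝒪 θN →+* heckeLocal M (↑S' : Set ℕ) 𝒪 θM) hν).IsEquiv HM.ρ ∧
      (∀ ν' : heckeLocal N (↑S : Set ℕ) 𝒪 θN →ₐ[𝒪] heckeLocal M (↑S' : Set ℕ) 𝒪 θM,
        (∀ (ℓ : ℕ) (hℓ : ℓ.Prime) (hℓN : ¬ ℓ ∣ N) (hℓS : ℓ ∉ (↑S : Set ℕ)) (hℓM : ¬ ℓ ∣ M)
          (hℓS' : ℓ ∉ (↑S' : Set ℕ)),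
          ν' (heckeLocal.π N (↑S : Set ℕ) 𝒪 θN (heckeAlgebra.T hℓ hℓN hℓS)) =
            heckeLocal.π M (↑S' : Set ℕ) 𝒪 θM (heckeAlgebra.T hℓ hℓM hℓS')) → ν' = ν) := by
  have hSS : (↑S' : Set ℕ) ⊆ (↑S : Set ℕ) := Finset.coe_subset.mpr hS
  have hNS' : ∀ q : ℕ, q.Prime → q ∣ N → q ∈ (↑S : Set ℕ) := fun q hq hqN =>
    Finset.mem_coe.mpr (hNS q hq hqN)
  have hθ : Compat (↑S : Set ℕ) (↑S' : Set ℕ) 𝒪 θN θM :=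
    compat_of_data HN HM ρ₀ a S₀ h₀ hθN hθM
  have hfin : (↑S : Set ℕ).Finite := S.finite_toSet
  refine ⟨nu h _ _ hSS hNS' 𝒪 θN θM hθ, nu_isLocalHom h _ _ hSS hNS' 𝒪 θN θM hθ,
    fun ℓ hℓ hℓN hℓS hℓM hℓS' => nu_π_T h _ _ hSS hNS' 𝒪 θN θM hθ hℓ hℓN hℓS hℓM hℓS',
    fun σ => nu_trace h _ _ hSS hNS' 𝒪 θN θM hθ hfin HN hHN HM hHM σ,
    fun σ => (nu_trace_det h _ _ hSS hNS' 𝒪 θN θM hθ hfin HN hHN HM hHM σ).2,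
    nu_isEquiv h _ _ hSS hNS' 𝒪 θN θM hθ hfin HN hHN HM hHM _,
    fun ν' hν' => nu_unique h _ _ hSS hNS' 𝒪 θN θM hθ ν' hν'⟩

end Fermat.Agent.S59lib.Nu

end
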