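/-
S59lib / Nu / Hub (helper6): **the map `ν` for the hub's Hecke rings** (`Hub.SideGal`, `Ts = ∅`).

For a good ramification set `S'` the level `lvlTw P (Smin ∪ ∅) = R0` divides `lvlTw P S'`, the Hecke sets satisfy
`Smin ∪ ∅ ∪ Aux ⊆ S' ∪ Aux`, and both residual characters take the values `a_ℓ` at the `T_ℓ`; so `Nu.exists_nu_of_data`
applies to the chosen Hecke–Galois data `Sg.D.H`:

* `exists_nu_hub` : `ν : (Sg.F S' hS').R →ₐ[𝒪] (Sg.F (Smin ∪ ∅) _).R`, local, `ν(T_ℓ) = T_ℓ`, matching traces and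
  determinants, `ν_* ρ_{S'} ≅ ρ_∅`, unique.
-/
import Mathlib
import Fermat.Agent.S59lib.Nu.Final
import Fermat.Agent.S59lib.Hub.SideGal
import Fermat.Agent.S43lib.B2.Main

set_option autoImplicit false
set_option linter.unusedSectionVars false
set_option linter.unusedVariables false
set_option linter.style.haveILetI false

noncomputable section

namespace Fermat.Agent.S59lib.Nu

open CongruenceSubgroup CuspForm IsLocalRing Polynomial Fermat.Agent.S59lib.Hub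
open scoped TensorProduct

local notation "Qb" => AlgebraicClosure ℚ
local notation "GQ" => (AlgebraicClosure ℚ ≃ₐ[ℚ] AlgebraicClosure ℚ)

variable {P : Ctx}

theorem tp_Smin_union_empty (P : Ctx) : tp P (P.Smin ∪ ∅) = 1 := by
  unfold tp
  rw [Finset.union_empty, Finset.sdiff_self, Finset.filter_empty, Finset.prod_empty]

theorem lvlTw_Smin_union_empty (P : Ctx) : lvlTw P (P.Smin ∪ ∅) = P.R0 := by
  rw [lvlTw_def, tp_Smin_union_empty, mul_one, mul_one]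

theorem lvlTw_Smin_dvd (P : Ctx) (S' : Finset ℕ) : lvlTw P (P.Smin ∪ ∅) ∣ lvlTw P S' := by
  rw [lvlTw_Smin_union_empty]
  exact R0_dvd_lvlTw P S'

/-- **the map `ν` on the hub** -/
theorem exists_nu_hub (Sg : SideGal P ∅) (S' : Finset ℕ) (hS' : Sg.good S')
    (h0 : Sg.good (P.Smin ∪ ∅)) :
    ∃ (ν : (Sg.F S' hS').R →ₐ[Sg.𝒪] (Sg.F (P.Smin ∪ ∅) h0).R)
      (hν : IsLocalHom (ν : (Sg.F S' hS').R →+* (Sg.F (P.Smin ∪ ∅) h0).R)),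
      (∀ σ : GQ, ν ((Sg.F S' hS').ρ.trace σ) = (Sg.F (P.Smin ∪ ∅) h0).ρ.trace σ) ∧
      (∀ σ : GQ, ν (LinearMap.det ((Sg.F S' hS').ρ.ρ σ)) =
        LinearMap.det ((Sg.F (P.Smin ∪ ∅) h0).ρ.ρ σ)) ∧
      ((Sg.F S' hS').ρ.baseChangeAlong
        (ν : (Sg.F S' hS').R →+* (Sg.F (P.Smin ∪ ∅) h0).R) hν).IsEquiv
        (Sg.F (P.Smin ∪ ∅) h0).ρ ∧
      (∀ (ℓ : ℕ) (hℓ : ℓ.Prime) (hℓN : ¬ ℓ ∣ lvlTw P S') (hℓS : ℓ ∉ (↑(S' ∪ P.Aux) : Set ℕ))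
        (hℓM : ¬ ℓ ∣ lvlTw P (P.Smin ∪ ∅)) (hℓS' : ℓ ∉ (↑(P.Smin ∪ ∅ ∪ P.Aux) : Set ℕ)),
        ν (heckeLocal.π (lvlTw P S') (↑(S' ∪ P.Aux) : Set ℕ) Sg.𝒪 (Sg.D.θ S' hS')
            (heckeAlgebra.T hℓ hℓN hℓS)) =
          heckeLocal.π (lvlTw P (P.Smin ∪ ∅)) (↑(P.Smin ∪ ∅ ∪ P.Aux) : Set ℕ) Sg.𝒪
            (Sg.D.θ (P.Smin ∪ ∅) h0) (heckeAlgebra.T hℓ hℓM hℓS')) := by
  have hsub : P.Smin ∪ ∅ ∪ P.Aux ⊆ S' ∪ P.Aux :=
    Finset.union_subset_union_left hS'.1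
  obtain ⟨ν, hν, hT, htr, hdet, heq, -⟩ :=
    exists_nu_of_data (p := P.p) (lvlTw_Smin_dvd P S') hsub (Sg.D.primes_mem S' hS')
      (Sg.D.H S' hS') (Sg.D.H_π S' hS') (Sg.D.H (P.Smin ∪ ∅) h0) (Sg.D.H_π (P.Smin ∪ ∅) h0)
      P.ρ₀ P.a P.S₀ P.h₀ (Sg.D.hθ S' hS') (Sg.D.hθ (P.Smin ∪ ∅) h0)
  exact ⟨ν, hν, fun σ => (htr σ).symm, fun σ => (hdet σ).symm, heq, hT⟩

end Fermat.Agent.S59lib.Nu

end
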