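/-
S59lib / Nu / HSSigma (helper6) — Project I: **brick (HS-Σ) for the hub contexts of `(W, p)`**, `hsSigmaStmt : Hub.HSSigmaStmt`.

Assembly of
* helper2's `HS.hs_sigma` (the chain of congruence modules `R0 → R0 ∏ q²` and the top bound),
* helper5's `Min.HS6.hbase_hub` (the base of the chain: HS6 + the minimal `R = 𝕋`), `Min.HS6.exists_signs_of_anemic`,
* helper4's `SMO.chainOK_of_finite` and helper2's `HS.chainOK_of_aux` (the ranks along the chain), via `Nu.chain_data`,
* helper7's hub-side inputs `Hub/HSInst`, `Hub/HSHub` (newness, non-Eisenstein primes, the levels),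
* `Nu.exists_eigen_of_char` (a character of the Hecke algebra of the forms gives an eigenvector of the Betti lattice).

The base point is old at the auxiliary primes (`OldAtAux`), so its system of eigenvalues occurs at the `Aux`-free level
`B`; the signs at the primes of `B` are chosen at that level; the dropped primes are `D = Aux ∪ ({p} if p ∤ B)`
(`HSW.dropSet`).  Everything below the top level is `HSW.exists_chainPkg` (`Nu/HSWChain`).
-/
import Mathlib
import Fermat.Agent.S59lib.Nu.HSWChain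

set_option autoImplicit false
set_option linter.unusedSectionVars false
set_option linter.unusedVariables false
set_option linter.style.haveILetI false

noncomputable section

namespace Fermat.Agent.S59lib.Nu

open Fermat.Agent.S43lib.Mod4 Fermat.Agent.S43lib.Mod4.Hub
open Module IsLocalRing CongruenceSubgroup CuspForm
open Fermat.Agent.S59lib.N3 Fermat.Agent.S59lib.HS Fermat.Agent.S59lib.Hub
open Fermat.Agent.S59lib.NumCrit
open scoped MatrixGroups

local notation "GQ" => (AlgebraicClosure ℚ ≃ₐ[ℚ] AlgebraicClosure ℚ)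

open HSW

set_option maxHeartbeats 1600000 in
set_option synthInstance.maxHeartbeats 400000 in
/-- **Brick (HS-Σ) for the hub contexts of `(W, p)`.** -/
theorem hsSigmaStmt : Hub.HSSigmaStmt := by
  intro I 𝒟 gs hT hnoP hAux Sg N hN hmod hty π₀ hold Sig hSig hdisj πS htr
  classical
  letI : Algebra (ZMod I.p) (ResidueField Sg.𝒪) := Sg.instAlgebraZMod
  haveI : Fact I.p.Prime := I.instFact
  obtain ⟨ev₀, l, ℓ₁, pk⟩ := exists_chainPkg I 𝒟 gs hT hnoP hAux Sg hN hmod hty π₀ hold Sig hSig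
    hdisj ∅
  -- the top of the chain
  have key := hs_sigma (p := I.p) (𝒪 := Sg.𝒪) I.hp2 Sg.hp𝒪 (R0 := I.R0) l
    (M := lvlTw (I.mkCtx 𝒟 gs hT) (Sg.S ∪ Sig)) pk.lvl
    (S := (↑((Sg.S ∪ Sig) ∪ I.Aux) : Set ℕ)) (Sg.D.θ (Sg.S ∪ Sig) hSig)
    (fun q hq hd => Finset.mem_coe.2 (Sg.D.primes_mem _ hSig q hq hd))
    πS (fun ℓ => ℓ ∈ dropSet I)
    (fun ℓ hℓ hℓM => by
      constructor
      · intro h
        rcases Finset.mem_union.1 (dropSet_subset I h) with h1 | h1
        · exact Finset.mem_coe.2 (Finset.mem_union_left _ (Finset.mem_union_left _ h1))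
        · exact Finset.mem_coe.2 (Finset.mem_union_right _ h1)
      · intro h
        obtain ⟨-, h2⟩ := Sg.D.hSdvd _ hSig ℓ (Finset.mem_coe.1 h)
        rcases (Nat.Prime.dvd_mul hℓ).1 h2 with h3 | h3
        · exact absurd h3 hℓM
        · have h4 : ℓ = I.p := (Nat.prime_dvd_prime_iff_eq hℓ I.pp).1 h3
          refine (mem_dropSet I).2 (Or.inr ⟨fun hp => hℓM ?_, h4⟩)
          rw [h4]
          exact (hp.trans (B_dvd_R0 I)).trans (R0_dvd_lvlTw (I.mkCtx 𝒟 gs hT) (Sg.S ∪ Sig)))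
    ev₀
    (fun ℓ hℓ hℓM hℓS => by
      refine (hev_hub Sg π₀ Sig hSig πS htr ℓ hℓ hℓM hℓS).trans ?_
      refine (pk.ev_off ℓ (fun h => hℓM ?_)).symm
      exact (h.trans (B_dvd_R0 I)).trans (R0_dvd_lvlTw (I.mkCtx 𝒟 gs hT) (Sg.S ∪ Sig)))
    (fun q hq hqq hqD => by
      have h1 : q ∣ tp (I.mkCtx 𝒟 gs hT) (Sg.S ∪ Sig) := by
        by_contra hcon
        exact not_sq_dvd_lvlTw (I.mkCtx 𝒟 gs hT) hq (Sg.S ∪ Sig) hcon (by rwa [pow_two])
      obtain ⟨h2, h3⟩ := prime_dvd_tp (I.mkCtx 𝒟 gs hT) hq h1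
      rcases Finset.mem_union.1 h2 with h4 | h4
      · rcases Finset.mem_union.1 h4 with h5 | h5
        · exact absurd h5 h3
        · exact absurd h5 (Finset.notMem_empty q)
      · exact pk.mem_l q h4)
    (fun q hq h => Sg.D.hcube _ hSig q hq (by
      have : q ^ 3 = q * q * q := by ring
      rwa [this]))
    (fun r M' _ hr hM' hrM' hrD => by
      have hrA : r ∉ I.Aux := fun h => hrD (Aux_subset_dropSet I h)
      have hrd : r ∣ lvlTw (I.mkCtx 𝒟 gs hT) (Sg.S ∪ Sig) := ⟨M', by rw [hM', mul_comm]⟩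
      have hr2 : ¬ r ^ 2 ∣ lvlTw (I.mkCtx 𝒟 gs hT) (Sg.S ∪ Sig) := by
        intro h
        rw [hM', pow_two] at h
        exact hrM' ((Nat.mul_dvd_mul_iff_right hr.pos).1 h)
      have hrSmin : r ∈ I.Smin := I.mem_Smin_of_dvd_lvlTw 𝒟 gs hT (Sg.S ∪ Sig) hr hrA hrd hr2
      have hrB : r ∣ I.B := dvd_B_of_mem_Smin I hrSmin hrD
      refine ⟨pk.ev_sq r hr hrB, ?_⟩
      by_cases hrp : r = I.p
      · subst hrp
        exact I.hone_hub_p 𝒟 gs hT (hnoP hrB) Sg (Sg.S ∪ Sig) hSig M' hM' hrM'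
      · exact I.hone_hub 𝒟 gs hT Sg (Sg.S ∪ Sig) hSig r M' hr hrp hrA hM' hrM')
    pk.ok pk.prime₁ pk.not_dvd₁ pk.notDrop₁ pk.unit₁ pk.ne_base
    (Module.length Sg.𝒪 (Sg.𝒪 ⧸ congIdeal π₀)) pk.base.le
  rw [pk.sum] at key
  exact key

end Fermat.Agent.S59lib.Nu
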