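/-
S59lib / Nu / Stmt (helper6): **`Hub.NuStmt` is a theorem** (brick ν of the final assembly `Hub/RTAsm`).
-/
import Mathlib
import Fermat.Agent.S59lib.Nu.Hub
import Fermat.Agent.S59lib.Hub.RTAsm

set_option autoImplicit false
set_option linter.unusedSectionVars false
set_option linter.unusedVariables false
set_option linter.style.haveILetI false

noncomputable section

namespace Fermat.Agent.S59lib.Nu

open Fermat.Agent.S59lib.Hub

/-- **Brick ν**: the old-subspace maps of the hub's Hecke rings to the minimal one, matching traces. -/
theorem nuStmt : NuStmt := by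
  intro P Sg S' hS'
  obtain ⟨ν, hν, htr, -⟩ := exists_nu_hub Sg S' hS' (Sg.hgoodS (thyp_empty P))
  exact ⟨ν, htr⟩

end Fermat.Agent.S59lib.Nu

end
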