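/-
S59lib / Nu / HSEig (helper6) — Project I, brick (HS-Σ) on the hub, part (α):
**from a character of the anemic Hecke algebra of the cusp forms to an eigenvector of the Betti lattice**
(the converse of helper2's `N3.exists_char_of_eigen`).

* `exists_eigen_of_algHom` : a finite commutative `𝒪`-algebra `A` acting faithfully on a finite `𝒪`-module `L`
  (`𝒪` a noetherian domain), `χ : A →ₐ[𝒪] 𝒪` ⟹ a nonzero `v ∈ L` with `a • v = χ a • v`
  (`ker χ` is a minimal prime of `A`, hence an associated prime of `L`);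
* `tmul_sum_eq_zero` : `∑ e_j ⊗ w_j = 0` in `𝒪 ⊗_ℤ V`, `V` free, `e` `ℤ`-linearly independent ⟹ `w_j = 0`;
* **`exists_eigen_of_char`** : `χ : heckeAlgebra N 2 S →+* 𝒪` ⟹ `x ≠ 0` in `MO 𝒪 N` with
  `T_ℓ x = χ (T_ℓ) • x` for all `ℓ ∤ N`, `ℓ ∉ S`.
-/
import Mathlib
import Fermat.Agent.S59lib.HS.Top
import Fermat.Agent.S43lib.B2.Bridge.Rev
import Fermat.Agent.S43lib.B2.Bridge.NonVan

set_option autoImplicit false
set_option linter.unusedSectionVars false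
set_option linter.unusedVariables false
set_option linter.style.haveILetI false

noncomputable section

namespace Fermat.Agent.S59lib.Nu

open Module IsLocalRing TensorProduct CongruenceSubgroup CuspForm
open Fermat.Agent.S41lib.HC Fermat.Agent.S41lib.BR Fermat.Agent.S16lib.LG
open Fermat.Agent.S43lib.B2 Fermat.Agent.S43lib.B2.Bridge Fermat.Agent.S59lib.N3
open Fermat.Agent.S59lib.HS
open scoped MatrixGroups IsMulCommutative

/-! ### The abstract statement -/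

section Abstract

variable {𝒪 A L : Type*} [CommRing 𝒪] [IsDomain 𝒪] [IsNoetherianRing 𝒪]
  [CommRing A] [Algebra 𝒪 A] [Module.Finite 𝒪 A] [AddCommGroup L] [Module 𝒪 L] [Module A L]
  [IsScalarTower 𝒪 A L] [Module.Finite 𝒪 L]

/-- **a character of a finite commutative algebra acting faithfully has an eigenvector** -/
theorem exists_eigen_of_algHom (hf : ∀ a : A, (∀ x : L, a • x = 0) → a = 0) (χ : A →ₐ[𝒪] 𝒪) :
    ∃ v : L, v ≠ 0 ∧ ∀ a : A, a • v = χ a • v := by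
  haveI : IsNoetherian 𝒪 A := isNoetherian_of_isNoetherianRing_of_finite 𝒪 A
  haveI : IsNoetherianRing A := isNoetherian_of_tower 𝒪 (inferInstance : IsNoetherian 𝒪 A)
  haveI : Module.Finite A L := Module.Finite.of_restrictScalars_finite 𝒪 A L
  set 𝔭 : Ideal A := RingHom.ker (χ : A →+* 𝒪) with h𝔭
  haveI h𝔭p : 𝔭.IsPrime := RingHom.ker_isPrime _
  have hann : Module.annihilator A L = ⊥ := by
    rw [eq_bot_iff]
    intro a ha
    rw [Module.mem_annihilator] at ha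
    exact (Ideal.mem_bot).2 (hf a ha)
  have hmin : 𝔭 ∈ (Module.annihilator A L).minimalPrimes := by
    rw [hann]
    refine ⟨⟨h𝔭p, bot_le⟩, ?_⟩
    rintro 𝔮 ⟨h𝔮, -⟩ h𝔮𝔭
    -- `A ⧸ 𝔮` is a domain, integral over `𝒪`; the image of `𝔭` lies over `0`
    haveI := h𝔮
    haveI : Algebra.IsIntegral 𝒪 (A ⧸ 𝔮) := inferInstance
    have hbot : 𝔭.map (Ideal.Quotient.mk 𝔮) = ⊥ := by
      apply Ideal.eq_bot_of_comap_eq_bot (R := 𝒪)
      rw [eq_bot_iff]
      intro c hc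
      rw [Ideal.mem_comap] at hc
      have h1 : algebraMap 𝒪 (A ⧸ 𝔮) c = Ideal.Quotient.mk 𝔮 (algebraMap 𝒪 A c) := rfl
      rw [h1, Ideal.mem_map_iff_of_surjective _ Ideal.Quotient.mk_surjective] at hc
      obtain ⟨a, ha, hac⟩ := hc
      have h2 : a - algebraMap 𝒪 A c ∈ 𝔮 := by
        rw [← Ideal.Quotient.eq]
        exact hac
      have h3 : algebraMap 𝒪 A c ∈ 𝔭 := by
        have := Ideal.sub_mem _ ha (h𝔮𝔭 h2)
        rwa [sub_sub_cancel] at this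
      rw [h𝔭, RingHom.mem_ker] at h3
      have h4 : χ (algebraMap 𝒪 A c) = c := by
        rw [AlgHom.commutes]
        rfl
      rw [Ideal.mem_bot, ← h4]
      exact h3
    intro a ha
    have h1 : Ideal.Quotient.mk 𝔮 a ∈ 𝔭.map (Ideal.Quotient.mk 𝔮) := Ideal.mem_map_of_mem _ ha
    rw [hbot, Ideal.mem_bot, Ideal.Quotient.eq_zero_iff_mem] at h1
    exact h1
  have hass := Module.associatedPrimes.minimalPrimes_annihilator_subset_associatedPrimes A L hmin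
  rw [AssociatedPrimes.mem_iff, isAssociatedPrime_iff] at hass
  obtain ⟨-, v, hv⟩ := hass
  have hmem : ∀ a : A, a ∈ 𝔭 ↔ a • v = 0 := by
    intro a
    rw [hv, Submodule.mem_colon_singleton, Submodule.mem_bot]
  refine ⟨v, ?_, fun a => ?_⟩
  · rintro rfl
    have h1 : (1 : A) ∈ 𝔭 := (hmem 1).2 (smul_zero _)
    exact h𝔭p.ne_top ((Ideal.eq_top_iff_one _).2 h1)
  · have h1 : a - algebraMap 𝒪 A (χ a) ∈ 𝔭 := by
      rw [h𝔭, RingHom.mem_ker]
      show χ (a - algebraMap 𝒪 A (χ a)) = 0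
      rw [map_sub, AlgHom.commutes]
      exact sub_self _
    have h2 := (hmem _).1 h1
    rw [sub_smul, sub_eq_zero, algebraMap_smul] at h2
    exact h2

end Abstract

/-! ### Linear independence in a tensor product -/

/-- `∑ e_j ⊗ w_j = 0` in `𝒪 ⊗_ℤ V` (`V` free, the `e_j` linearly independent over `ℤ`) forces `w_j = 0` -/
theorem tmul_sum_eq_zero {𝒪 : Type*} [CommRing 𝒪] {V : Type*} [AddCommGroup V] [Module.Free ℤ V]
    {m : ℕ} (e : Fin m → 𝒪) (he : LinearIndependent ℤ e) (w : Fin m → V)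
    (h : ∑ j, e j ⊗ₜ[ℤ] w j = (0 : 𝒪 ⊗[ℤ] V)) : ∀ j, w j = 0 := by
  classical
  let b := Module.Free.chooseBasis ℤ V
  intro j
  apply b.ext_elem
  intro i
  let f : 𝒪 ⊗[ℤ] V →ₗ[ℤ] 𝒪 :=
    (TensorProduct.rid ℤ 𝒪).toLinearMap ∘ₗ (LinearMap.lTensor 𝒪 (b.coord i))
  have h1 := congrArg f h
  rw [map_sum, map_zero] at h1
  have h2 : ∀ j, f (e j ⊗ₜ[ℤ] w j) = b.coord i (w j) • e j := by
    intro j
    show (TensorProduct.rid ℤ 𝒪) ((LinearMap.lTensor 𝒪 (b.coord i)) (e j ⊗ₜ[ℤ] w j)) = _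
    rw [LinearMap.lTensor_tmul, TensorProduct.rid_tmul]
  simp_rw [h2] at h1
  have h3 := Fintype.linearIndependent_iff.mp he (fun j => b.coord i (w j)) h1 j
  rw [map_zero, Finsupp.zero_apply]
  exact h3

/-! ### The anemic Betti Hecke algebra and its characters -/

section Eigen

variable {𝒪 : Type*} [CommRing 𝒪] {N : ℕ} [NeZero N] {S : Set ℕ}

/-- the dropped primes of the anemic algebra: everything dividing the level or in `S` -/
def Pan (N : ℕ) (S : Set ℕ) : ℕ → Prop := fun ℓ => ℓ ∣ N ∨ ℓ ∈ S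

theorem not_Pan (ℓ : GoodPrime N S) : ¬ Pan N S ℓ.1 := fun h => h.elim ℓ.2.2.1 ℓ.2.2.2

/-- `T_ℓ` in the anemic algebra -/
def tAn (ℓ : GoodPrime N S) : HecA 𝒪 N (Pan N S) := tA ℓ.2.1 ℓ.2.2.1 (not_Pan ℓ)

/-- the polynomial ring on the good primes maps onto the anemic algebra -/
def phiAn : MvPolynomial (GoodPrime N S) 𝒪 →ₐ[𝒪] HecA 𝒪 N (Pan N S) :=
  MvPolynomial.aeval (tAn (𝒪 := 𝒪))

theorem phiAn_surjective : Function.Surjective (phiAn (𝒪 := 𝒪) (N := N) (S := S)) := by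
  intro a
  have key : ∃ s : MvPolynomial (GoodPrime N S) 𝒪, HecA.val (phiAn s) = HecA.val a := by
    refine hecA_induction (P := Pan N S)
      (motive := fun a' => ∃ s : MvPolynomial (GoodPrime N S) 𝒪, HecA.val (phiAn s) = a')
      ?_ ?_ ?_ ?_ ?_ (HecA.val_mem a)
    · intro ℓ hℓ hℓN hP
      refine ⟨MvPolynomial.X ⟨ℓ, hℓ, hℓN, fun h => hP (Or.inr h)⟩, ?_⟩
      rw [phiAn, MvPolynomial.aeval_X]
      rfl
    · intro r hr hrN hP
      exact absurd (Or.inl hrN) hP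
    · intro c
      refine ⟨MvPolynomial.C c, ?_⟩
      rw [phiAn, MvPolynomial.aeval_C, AlgHom.commutes]
    · rintro a b ⟨s, hs⟩ ⟨t, ht⟩
      exact ⟨s + t, by rw [map_add, map_add, hs, ht]⟩
    · rintro a b ⟨s, hs⟩ ⟨t, ht⟩
      exact ⟨s * t, by rw [map_mul, map_mul, hs, ht]⟩
  obtain ⟨s, hs⟩ := key
  exact ⟨s, HecA.val_injective hs⟩

/-- the value of an integral polynomial -/
theorem phiAn_lift (Q : FreeAlgebra ℤ (GoodPrime N S)) :
    HecA.val (phiAn (𝒪 := 𝒪) (FreeAlgebra.lift ℤ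
      (fun ℓ : GoodPrime N S => (MvPolynomial.X ℓ : MvPolynomial (GoodPrime N S) 𝒪)) Q)) =
      (evalL Q).baseChange 𝒪 := by
  have h1 := map_lift_int ((phiAn (𝒪 := 𝒪) (N := N) (S := S) :
    MvPolynomial (GoodPrime N S) 𝒪 →+* HecA 𝒪 N (Pan N S)))
    (fun ℓ : GoodPrime N S => (MvPolynomial.X ℓ : MvPolynomial (GoodPrime N S) 𝒪)) Q
  have h2 : (fun ℓ : GoodPrime N S => (phiAn (𝒪 := 𝒪) (N := N) (S := S) :
      MvPolynomial (GoodPrime N S) 𝒪 →+* HecA 𝒪 N (Pan N S))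
      (MvPolynomial.X ℓ : MvPolynomial (GoodPrime N S) 𝒪)) = tAn (𝒪 := 𝒪) := by
    funext ℓ
    show phiAn (MvPolynomial.X ℓ) = _
    rw [phiAn, MvPolynomial.aeval_X]
  rw [h2] at h1
  have h3 : phiAn (𝒪 := 𝒪) (FreeAlgebra.lift ℤ
      (fun ℓ : GoodPrime N S => (MvPolynomial.X ℓ : MvPolynomial (GoodPrime N S) 𝒪)) Q) =
      FreeAlgebra.lift ℤ (tAn (𝒪 := 𝒪) (N := N) (S := S)) Q := h1
  rw [h3]
  exact val_lift_baseChange (HecA.val : HecA 𝒪 N (Pan N S) →ₐ[𝒪] _).toRingHom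
    (fun ℓ : GoodPrime N S => tL ℓ.2.1 ℓ.2.2.1) (tAn (𝒪 := 𝒪)) (fun ℓ => rfl) Q

end Eigen

section Main

variable {𝒪 : Type*} [CommRing 𝒪] [IsDomain 𝒪] [CharZero 𝒪] [IsNoetherianRing 𝒪]
  {N : ℕ} [NeZero N] {S : Set ℕ}

/-- the character of the polynomial ring given by a character of the Hecke algebra of the forms -/
def chiPoly (χ : heckeAlgebra N 2 S →+* 𝒪) : MvPolynomial (GoodPrime N S) 𝒪 →ₐ[𝒪] 𝒪 :=
  MvPolynomial.aeval (fun ℓ : GoodPrime N S => χ (heckeAlgebra.T ℓ.2.1 ℓ.2.2.1 ℓ.2.2.2))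

omit [IsDomain 𝒪] [CharZero 𝒪] [IsNoetherianRing 𝒪] in
theorem chiPoly_lift (χ : heckeAlgebra N 2 S →+* 𝒪) (Q : FreeAlgebra ℤ (GoodPrime N S)) :
    chiPoly χ (FreeAlgebra.lift ℤ
      (fun ℓ : GoodPrime N S => (MvPolynomial.X ℓ : MvPolynomial (GoodPrime N S) 𝒪)) Q) =
      χ (evalForms Q) := by
  have h1 := map_lift_int ((chiPoly χ : MvPolynomial (GoodPrime N S) 𝒪 →+* 𝒪))
    (fun ℓ : GoodPrime N S => (MvPolynomial.X ℓ : MvPolynomial (GoodPrime N S) 𝒪)) Q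
  have h2 := map_lift_int χ
    (fun ℓ : GoodPrime N S => (heckeAlgebra.T ℓ.2.1 ℓ.2.2.1 ℓ.2.2.2 : ↥(heckeAlgebra N 2 S))) Q
  have h3 : (fun ℓ : GoodPrime N S => (chiPoly χ : MvPolynomial (GoodPrime N S) 𝒪 →+* 𝒪)
      (MvPolynomial.X ℓ : MvPolynomial (GoodPrime N S) 𝒪)) =
      fun ℓ : GoodPrime N S => χ (heckeAlgebra.T ℓ.2.1 ℓ.2.2.1 ℓ.2.2.2) := by
    funext ℓ
    show chiPoly χ (MvPolynomial.X ℓ) = _
    rw [chiPoly, MvPolynomial.aeval_X]
  rw [h3] at h1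
  exact h1.trans h2.symm

/-- **the relations of the Betti lattice hold for the characters of the Hecke algebra of the forms** -/
theorem chiPoly_eq_zero_of_phiAn (χ : heckeAlgebra N 2 S →+* 𝒪)
    (s : MvPolynomial (GoodPrime N S) 𝒪) (hs : phiAn (𝒪 := 𝒪) s = 0) : chiPoly χ s = 0 := by
  classical
  obtain ⟨m, e, P', hli, hdec⟩ := exists_decomposition s
  -- the action on `1 ⊗ v`
  have hact : ∀ v : ↥(VZ (Gamma0 N)), ∑ j, e j ⊗ₜ[ℤ] (evalL (P' j) v) = (0 : MO 𝒪 N) := by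
    intro v
    have h1 : HecA.val (phiAn (𝒪 := 𝒪) s) ((1 : 𝒪) ⊗ₜ[ℤ] v) = 0 := by
      rw [hs, map_zero, LinearMap.zero_apply]
    rw [hdec, map_sum, map_sum, LinearMap.sum_apply] at h1
    refine Eq.trans (Finset.sum_congr rfl fun j _ => ?_) h1
    rw [map_mul, map_mul, phiAn_lift]
    have h2 : phiAn (𝒪 := 𝒪) (N := N) (S := S) (MvPolynomial.C (e j)) =
        algebraMap 𝒪 (HecA 𝒪 N (Pan N S)) (e j) := by
      rw [phiAn, MvPolynomial.aeval_C]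
    rw [h2, AlgHom.commutes, Module.End.mul_apply, Module.algebraMap_end_apply,
      LinearMap.baseChange_tmul, TensorProduct.smul_tmul', smul_eq_mul, mul_one]
  have hzero : ∀ j, (evalForms (P' j) : ↥(heckeAlgebra N 2 S)) = 0 := by
    intro j
    apply evalForms_eq_zero_of_int
    intro φ hφ
    have h1 := tmul_sum_eq_zero e hli (fun j => evalL (P' j) (⟨φ, hφ⟩ : ↥(VZ (Gamma0 N))))
      (hact ⟨φ, hφ⟩) j
    have h2 := evalL_coe (P' j) (⟨φ, hφ⟩ : ↥(VZ (Gamma0 N)))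
    rw [h1] at h2
    exact h2.symm
  rw [hdec, map_sum]
  refine Finset.sum_eq_zero fun j _ => ?_
  rw [map_mul, chiPoly_lift, hzero j, map_zero, mul_zero]

/-- **From a character of the Hecke algebra of the forms to an eigenvector of the Betti lattice.** -/
theorem exists_eigen_of_char (χ : heckeAlgebra N 2 S →+* 𝒪) :
    ∃ x : MO 𝒪 N, x ≠ 0 ∧ ∀ (ℓ : ℕ) (hℓ : ℓ.Prime) (hℓN : ¬ ℓ ∣ N) (hℓS : ℓ ∉ S),
      tO 𝒪 hℓ hℓN x = χ (heckeAlgebra.T hℓ hℓN hℓS) • x := by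
  classical
  -- the character of the anemic Betti algebra
  let χA : HecA 𝒪 N (Pan N S) →ₐ[𝒪] 𝒪 :=
    AlgHom.liftOfSurjective (phiAn (𝒪 := 𝒪) (N := N) (S := S)) phiAn_surjective (chiPoly χ)
      (fun s hs => chiPoly_eq_zero_of_phiAn χ s hs)
  have hχA : ∀ s, χA (phiAn s) = chiPoly χ s := fun s =>
    AlgHom.liftOfSurjective_apply _ _ _ _ s
  obtain ⟨v, hv0, hv⟩ := exists_eigen_of_algHom (𝒪 := 𝒪) (A := HecA 𝒪 N (Pan N S))
    (L := MO 𝒪 N) (fun a ha => by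
      apply HecA.val_injective
      apply LinearMap.ext
      intro x
      exact ha x) χA
  refine ⟨v, hv0, fun ℓ hℓ hℓN hℓS => ?_⟩
  have h1 := hv (tAn ⟨ℓ, hℓ, hℓN, hℓS⟩)
  have h2 : χA (tAn (𝒪 := 𝒪) (⟨ℓ, hℓ, hℓN, hℓS⟩ : GoodPrime N S)) =
      χ (heckeAlgebra.T hℓ hℓN hℓS) := by
    have h3 : tAn (𝒪 := 𝒪) (⟨ℓ, hℓ, hℓN, hℓS⟩ : GoodPrime N S) =
        phiAn (MvPolynomial.X (⟨ℓ, hℓ, hℓN, hℓS⟩ : GoodPrime N S)) := by
      rw [phiAn, MvPolynomial.aeval_X]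
    rw [h3, hχA, chiPoly, MvPolynomial.aeval_X]
  rw [h2] at h1
  exact h1

end Main

end Fermat.Agent.S59lib.Nu
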