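/-
S59lib / Nu / HSData (helper6) — Project I, brick (HS-Σ) on the hub, part (β): **the hub-free data of the chain**.

For a squarefree level `B`, a finite set `D` of dropped primes not dividing `B`, and a character `χ'` of the anemic
Hecke algebra of level `B` with values in `𝒪`:

* `eigO_anemic_ne_bot` : the eigenlattice of `χ'`, anemic at every prime of `B` and of `S`, does not vanish
  (`exists_eigen_of_char`);
* `exists_signs_B` : if the residual system is new at every prime of `B`, the eigenvalues of the `U_r`, `r ∣ B`, can be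
  chosen among the square roots of `1` such that the eigenlattice with only `D` dropped does not vanish
  (helper5's `Min.HS6.exists_signs_of_anemic`);
* `chainOK_level`, `eigO_ne_bot_level'` : transport of the chain hypothesis along an equality of levels;
* `chain_data` : for `R0 = B ∏ Aux`, `|Aux| ≤ 1`, `Aux ⊆ D`, the chain hypothesis `ChainOK p R0 (· ∈ D) ev₀ l` of helper2's
  `HS.hs_sigma` and the non-vanishing of the eigenlattice at the level `R0`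
  (helper4's `SMO.chainOK_of_finite`, helper2's `HS.chainOK_of_aux`).
-/
import Mathlib
import Fermat.Agent.S59lib.Nu.HSEig
import Fermat.Agent.S59lib.Min.HS6.Signs
import Fermat.Agent.S59lib.HS.Rank
import Fermat.Agent.S59lib.SMO.ChainRk

set_option autoImplicit false
set_option linter.unusedSectionVars false
set_option linter.unusedVariables false
set_option linter.style.haveILetI false

noncomputable section

namespace Fermat.Agent.S59lib.Nu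

open Module IsLocalRing CongruenceSubgroup CuspForm
open Fermat.Agent.S59lib.N3 Fermat.Agent.S59lib.HS
open scoped MatrixGroups

section Anemic

variable {𝒪 : Type*} [CommRing 𝒪] [IsDomain 𝒪] [CharZero 𝒪] [IsNoetherianRing 𝒪]

/-- **the anemic eigenlattice of a character of the Hecke algebra of the forms does not vanish** -/
theorem eigO_anemic_ne_bot {B : ℕ} [NeZero B] {S : Set ℕ} (χ' : heckeAlgebra B 2 S →+* 𝒪)
    (ev : ℕ → 𝒪)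
    (hχ' : ∀ (ℓ : ℕ) (hℓ : ℓ.Prime) (hℓB : ¬ ℓ ∣ B) (hℓS : ℓ ∉ S),
      χ' (heckeAlgebra.T hℓ hℓB hℓS) = ev ℓ)
    (P₀ : ℕ → Prop) (hP₀ : ∀ ℓ : ℕ, ℓ.Prime → (ℓ ∣ B ∨ ℓ ∈ S) → P₀ ℓ) :
    eigO 𝒪 B P₀ ev ≠ ⊥ := by
  obtain ⟨x, hx0, hx⟩ := exists_eigen_of_char χ'
  intro hbot
  apply hx0
  have hmem : x ∈ eigO 𝒪 B P₀ ev := by
    refine ⟨fun ℓ hℓ hℓB hP => ?_, fun r hr hrB hP => ?_⟩
    · have hℓS : ℓ ∉ S := fun h => hP (hP₀ ℓ hℓ (Or.inr h))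
      rw [hx ℓ hℓ hℓB hℓS, hχ' ℓ hℓ hℓB hℓS]
    · exact absurd (hP₀ r hr (Or.inl hrB)) hP
  rw [hbot] at hmem
  exact (Submodule.mem_bot 𝒪).mp hmem

end Anemic

section Signs

variable {𝒪 : Type} [CommRing 𝒪] [IsDomain 𝒪] [IsDiscreteValuationRing 𝒪]
  [IsAdicComplete (maximalIdeal 𝒪) 𝒪] [CharZero 𝒪]

/-- **the signs at the squarefree level `B`**: the system of a character of level `B`, new at every prime of `B`,
occurs in the Betti lattice of level `B` with signs at the primes of `B`, only the primes of `D` being dropped. -/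
theorem exists_signs_B {B : ℕ} [NeZero B] (hBsq : Squarefree B) (S D : Finset ℕ)
    (hBS : ∀ q : ℕ, q.Prime → q ∣ B → q ∈ S) (hDS : D ⊆ S)
    (hSD : ∀ ℓ ∈ S, ℓ ∈ D ∨ ℓ ∣ B)
    (χ' : heckeAlgebra B 2 (↑S : Set ℕ) →+* 𝒪) (ev : ℕ → 𝒪)
    (hχ' : ∀ (ℓ : ℕ) (hℓ : ℓ.Prime) (hℓB : ¬ ℓ ∣ B) (hℓS : ℓ ∉ (↑S : Set ℕ)),
      χ' (heckeAlgebra.T hℓ hℓB hℓS) = ev ℓ)
    (hnew : ∀ r : ℕ, r.Prime → r ∣ B → ∀ (M'' : ℕ) [NeZero M''], B = M'' * r → ¬ r ∣ M'' →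
      ¬ ∃ χ : heckeAlgebra M'' 2 (↑S : Set ℕ) →+* ResidueField 𝒪,
        ∀ (ℓ : ℕ) (hℓ : ℓ.Prime) (hℓB : ¬ ℓ ∣ B) (hℓM'' : ¬ ℓ ∣ M'') (hℓS : ℓ ∉ (↑S : Set ℕ)),
          χ (heckeAlgebra.T hℓ hℓM'' hℓS) = residue 𝒪 (ev ℓ)) :
    ∃ ev₀ : ℕ → 𝒪, (∀ ℓ : ℕ, ¬ ℓ ∣ B → ev₀ ℓ = ev ℓ) ∧
      (∀ r : ℕ, r.Prime → r ∣ B → ev₀ r * ev₀ r = 1) ∧
      eigO 𝒪 B (fun ℓ => ℓ ∈ D) ev₀ ≠ ⊥ := by
  classical
  have hB0 : B ≠ 0 := NeZero.ne B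
  have hne : eigO 𝒪 B (fun ℓ => ℓ ∈ D ∨ ℓ ∈ B.primeFactors) ev ≠ ⊥ := by
    refine eigO_anemic_ne_bot χ' ev hχ' _ ?_
    rintro ℓ hℓ (h | h)
    · exact Or.inr (Nat.mem_primeFactors.mpr ⟨hℓ, h, hB0⟩)
    · rcases hSD ℓ (Finset.mem_coe.mp h) with h1 | h1
      · exact Or.inl h1
      · exact Or.inr (Nat.mem_primeFactors.mpr ⟨hℓ, h1, hB0⟩)
  obtain ⟨ev', h1, h2, h3⟩ := Fermat.Agent.S59lib.Min.HS6.exists_signs_of_anemic (𝒪 := 𝒪) (M := B)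
    B.primeFactors (fun ℓ => ℓ ∈ D) (S := (↑S : Set ℕ))
    (fun r hr => by
      obtain ⟨hrp, hrB, -⟩ := Nat.mem_primeFactors.mp hr
      refine ⟨hrp, hrB, fun hsq => ?_⟩
      exact hrp.one_lt.ne' (Nat.isUnit_iff.mp (hBsq r hsq)))
    (fun q hq hqB => Finset.mem_coe.mpr (hBS q hq hqB))
    (fun ℓ hℓ hℓB hℓS hD => hℓS (Finset.mem_coe.mpr (hDS hD))) ev hne
    (fun r hr M'' _ hM'' hrM'' => by
      obtain ⟨hrp, hrB, -⟩ := Nat.mem_primeFactors.mp hr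
      exact hnew r hrp hrB M'' hM'' hrM'')
  refine ⟨ev', fun ℓ hℓ => h1 ℓ (fun h => hℓ (Nat.mem_primeFactors.mp h).2.1),
    fun r hr hrB => h2 r (Nat.mem_primeFactors.mpr ⟨hr, hrB, hB0⟩), h3⟩

end Signs

section Chain

variable {𝒪 : Type} [CommRing 𝒪] [IsDomain 𝒪] [IsDiscreteValuationRing 𝒪] [CharZero 𝒪]
variable {p : ℕ} [Fact p.Prime]

/-- transport of the chain hypothesis along an equality of base levels -/
theorem chainOK_level {R0 R0' : ℕ} [NeZero R0] [NeZero R0'] (h : R0 = R0') (P : ℕ → Prop)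
    (ev₀ : ℕ → 𝒪) (l : List Nat.Primes) (hok : ChainOK p R0 P ev₀ l) : ChainOK p R0' P ev₀ l := by
  subst h
  exact hok

/-- **the chain hypothesis and the non-vanishing at the level `R0 = B ∏ Aux`**, `|Aux| ≤ 1`, from the non-vanishing at
the level `B`. -/
theorem chain_data (hp2 : p ≠ 2) (hp : (p : 𝒪) ∈ maximalIdeal 𝒪) {B R0 : ℕ} [NeZero B]
    [NeZero R0] (Aux : Finset ℕ) (hAux : Aux.card ≤ 1) (hR0 : R0 = B * ∏ r ∈ Aux, r)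
    (D : Finset ℕ) (hAD : Aux ⊆ D) (hD : ∀ r ∈ D, r.Prime ∧ ¬ r ∣ B) (ev₀ : ℕ → 𝒪) {ℓ₁ : ℕ}
    (hℓ₁ : ℓ₁.Prime) (hDℓ₁ : ℓ₁ ∉ D) (hu : IsUnit (ev₀ ℓ₁ - ((ℓ₁ : 𝒪) + 1)))
    (hne : eigO 𝒪 B (fun ℓ => ℓ ∈ D) ev₀ ≠ ⊥)
    (l : List Nat.Primes) (hl : l.Nodup) (hℓ₁l : ¬ ℓ₁ ∣ lvlP B l)
    (hlq : ∀ q ∈ l, ¬ ((q : Nat.Primes) : ℕ) ∣ B ∧ ((q : Nat.Primes) : ℕ) ≠ p ∧
      ((q : Nat.Primes) : ℕ) ∉ D) :
    ChainOK p R0 (fun ℓ => ℓ ∈ D) ev₀ l ∧ eigO 𝒪 R0 (fun ℓ => ℓ ∈ D) ev₀ ≠ ⊥ := by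
  classical
  have hfin : {ℓ : ℕ | ℓ.Prime ∧ (fun ℓ => ℓ ∈ D) ℓ}.Finite :=
    D.finite_toSet.subset fun ℓ hℓ => hℓ.2
  have hDl : ∀ r : ℕ, r.Prime → r ∈ D → ¬ r ∣ lvlP B l := fun r hr hrD =>
    not_dvd_lvlP hr (hD r hrD).2 l (fun q hq h => (hlq q hq).2.2 (by rw [h]; exact hrD))
  have hokB : ChainOK p B (fun ℓ => ℓ ∈ D) ev₀ l :=
    Fermat.Agent.S59lib.SMO.chainOK_of_finite hp2 hp B (fun ℓ => ℓ ∈ D) hfin ev₀ hℓ₁ hDℓ₁ hu hne l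
      hℓ₁l hl hlq hDl
  rcases Finset.card_le_one_iff_subset_singleton.mp hAux with ⟨r₀, hr₀⟩
  by_cases hA : Aux = ∅
  · have hR0' : B = R0 := by rw [hR0, hA, Finset.prod_empty, mul_one]
    subst hR0'
    exact ⟨hokB, hne⟩
  · have hA1 : Aux = {r₀} := by
      rcases Finset.subset_singleton_iff.mp hr₀ with h | h
      · exact absurd h hA
      · exact h
    have hR0' : R0 = B * r₀ := by rw [hR0, hA1, Finset.prod_singleton]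
    have hr₀D : r₀ ∈ D := hAD (by rw [hA1]; exact Finset.mem_singleton_self r₀)
    have hr₀ : r₀.Prime := (hD r₀ hr₀D).1
    have hr₀B : ¬ r₀ ∣ B := (hD r₀ hr₀D).2
    have hD' : ∀ q ∈ D, q.Prime ∧ (q = r₀ ∨ ¬ q ∣ lvlP B l) := fun q hq =>
      ⟨(hD q hq).1, Or.inr (hDl q (hD q hq).1 hq)⟩
    have hD'' : ∀ q ∈ D, q.Prime ∧ (q = r₀ ∨ ¬ q ∣ lvlP B []) := fun q hq =>
      ⟨(hD q hq).1, Or.inr (hD q hq).2⟩
    have hℓ₁B : ¬ ℓ₁ ∣ lvlP B [] := fun h => hℓ₁l (dvd_trans h (R0_dvd_lvlP B l))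
    refine ⟨chainOK_of_aux hp2 hp hR0' hr₀ hr₀B D hr₀D ev₀ hℓ₁ hDℓ₁ hu hne l hokB hℓ₁l hD', ?_⟩
    exact eigO_ne_bot_top_aux hp2 hp hR0' hr₀ hr₀B D hr₀D ev₀ hℓ₁ hDℓ₁ hu hne [] trivial hℓ₁B hD''

end Chain

end Fermat.Agent.S59lib.Nu
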