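/-
S59lib / Nu / HSWData (helper6) — Project I: **the data of (HS-Σ) / (HS-p) at the hub contexts of `(W, p)`**.

* `HSW.dropSet I = Aux ∪ ({p} if p ∤ B)` : the dropped primes, with their elementary properties;
* **`HSW.exists_signs_hub`** : for a base point `π₀` old at the auxiliary primes (`OldAtAux`), a system `ev₀` with
  `ev₀ = aBase Sg π₀` off `B`, `ev₀ r ^ 2 = 1` at the primes of `B`, and `eigO 𝒪 B (· ∈ dropSet I) ev₀ ≠ ⊥`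
  (the signs are chosen at the `Aux`-free level `B`: `Nu.exists_signs_B`, helper7's `WIn.hnew_B`, `WIn.hnew_B_p`).
-/
import Mathlib
import Fermat.Agent.S59lib.Nu.HSData
import Fermat.Agent.S59lib.Hub.HSInst
import Fermat.Agent.S59lib.Hub.RTBlock

set_option autoImplicit false
set_option linter.unusedSectionVars false
set_option linter.unusedVariables false
set_option linter.style.haveILetI false

noncomputable section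

namespace Fermat.Agent.S59lib.Nu

open Fermat.Agent.S43lib.Mod4 Fermat.Agent.S43lib.Mod4.Hub
open Module IsLocalRing CongruenceSubgroup CuspForm
open Fermat.Agent.S59lib.N3 Fermat.Agent.S59lib.HS Fermat.Agent.S59lib.Hub
open Fermat.Agent.S59lib.NumCrit
open scoped MatrixGroups

local notation "GQ" => (AlgebraicClosure ℚ ≃ₐ[ℚ] AlgebraicClosure ℚ)

namespace HSW

variable (I : WIn) (𝒟 : DefType) (gs : GSFor I.p I.Smin 𝒟) (hT : I.HeckeTypeFor 𝒟)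

/-- the dropped primes: `Aux`, and `p` if `p ∤ B` -/
def dropSet : Finset ℕ := I.Aux ∪ (if I.p ∣ I.B then ∅ else {I.p})

theorem mem_dropSet {ℓ : ℕ} : ℓ ∈ dropSet I ↔ ℓ ∈ I.Aux ∨ (¬ I.p ∣ I.B ∧ ℓ = I.p) := by
  unfold dropSet
  rw [Finset.mem_union]
  by_cases h : I.p ∣ I.B
  · rw [if_pos h]
    simp [h]
  · rw [if_neg h, Finset.mem_singleton]
    simp [h]

theorem dropSet_prime {r : ℕ} (hr : r ∈ dropSet I) : r.Prime ∧ ¬ r ∣ I.B := by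
  rcases (mem_dropSet I).1 hr with h | ⟨h1, h2⟩
  · exact ⟨(I.Aux_spec r h).1, (I.Aux_spec r h).2.1⟩
  · rw [h2]
    exact ⟨I.pp, h1⟩

theorem Aux_subset_dropSet : I.Aux ⊆ dropSet I := fun r hr => (mem_dropSet I).2 (Or.inl hr)

theorem dropSet_subset : dropSet I ⊆ (I.Smin ∪ ∅) ∪ I.Aux := by
  intro ℓ hℓ
  rcases (mem_dropSet I).1 hℓ with h | ⟨-, h2⟩
  · exact Finset.mem_union_right _ h
  · rw [h2]
    exact Finset.mem_union_left _ (Finset.mem_union_left _ I.hpSmin)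

/-- a prime of `Smin ∪ Aux` is dropped or divides `B` -/
theorem mem_dropSet_or_dvd {ℓ : ℕ} (hℓ : ℓ ∈ (I.Smin ∪ ∅) ∪ I.Aux) : ℓ ∈ dropSet I ∨ ℓ ∣ I.B := by
  rcases Finset.mem_union.1 hℓ with h | h
  · rcases Finset.mem_union.1 h with h1 | h1
    · rcases Finset.mem_insert.1 h1 with h2 | h2
      · by_cases hp : I.p ∣ I.B
        · exact Or.inr (h2 ▸ hp)
        · exact Or.inl ((mem_dropSet I).2 (Or.inr ⟨hp, h2⟩))
      · exact Or.inr (Nat.dvd_of_mem_primeFactors h2)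
    · exact absurd h1 (Finset.notMem_empty ℓ)
  · exact Or.inl ((mem_dropSet I).2 (Or.inl h))

/-- a kept prime of `Smin` divides `B` -/
theorem dvd_B_of_mem_Smin {r : ℕ} (hr : r ∈ I.Smin) (hrD : r ∉ dropSet I) : r ∣ I.B := by
  rcases mem_dropSet_or_dvd I (Finset.mem_union_left _ (Finset.mem_union_left _ hr)) with h | h
  · exact absurd h hrD
  · exact h

/-- a prime of `B` lies in `Smin` -/
theorem mem_Smin_of_dvd_B {q : ℕ} (hq : q.Prime) (h : q ∣ I.B) : q ∈ I.Smin :=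
  Finset.mem_insert_of_mem (Nat.mem_primeFactors.2 ⟨hq, h, I.B_ne_zero⟩)

/-- a prime outside `Smin ∪ Aux` does not divide `R0` -/
theorem not_dvd_R0 {ℓ : ℕ} (hℓ : ℓ.Prime) (hℓS : ℓ ∉ (I.Smin ∪ ∅) ∪ I.Aux) : ¬ ℓ ∣ I.R0 := by
  intro h
  apply hℓS
  rcases Finset.mem_union.1 (I.R0_primes ℓ hℓ h) with h1 | h1
  · exact Finset.mem_union_left _ (Finset.mem_union_left _ h1)
  · exact Finset.mem_union_right _ h1

theorem B_dvd_R0 : I.B ∣ I.R0 := Dvd.intro _ rfl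


theorem dropSet_eq_of_not_dvd (h : ¬ I.p ∣ I.B) : dropSet I = I.Aux ∪ {I.p} := by
  unfold dropSet
  rw [if_neg h]

theorem dropSet_eq_of_dvd (h : I.p ∣ I.B) : dropSet I = I.Aux := by
  unfold dropSet
  rw [if_pos h, Finset.union_empty]

set_option maxHeartbeats 800000 in
set_option synthInstance.maxHeartbeats 400000 in
/-- **the signs at the level `B`** for a base point old at the auxiliary primes -/
theorem exists_signs_hub [NeZero I.B] (hnoP : I.p ∣ I.B → Fermat.Agent.S59lib.NoLevelPrimeTo I.W I.p)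
    (Sg : SideGal (I.mkCtx 𝒟 gs hT) ∅) (π₀ : (Tmin Sg).R →ₐ[Sg.𝒪] Sg.𝒪)
    (hold : OldAtAux (I.mkCtx 𝒟 gs hT) Sg π₀) :
    ∃ ev₀ : ℕ → Sg.𝒪, (∀ ℓ : ℕ, ¬ ℓ ∣ I.B → ev₀ ℓ = aBase Sg π₀ ℓ) ∧
      (∀ r : ℕ, r.Prime → r ∣ I.B → ev₀ r * ev₀ r = 1) ∧
      eigO Sg.𝒪 I.B (fun ℓ => ℓ ∈ dropSet I) ev₀ ≠ ⊥ := by
  classical
  letI : Algebra (ZMod I.p) (ResidueField Sg.𝒪) := Sg.instAlgebraZMod
  obtain ⟨B, hB0, hB, χ', hχ'⟩ := hold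
  have hauxpos : 0 < I.auxProd := Nat.pos_of_ne_zero I.squarefree_auxProd.ne_zero
  have hBeq : B = I.B := by
    have h1 : I.B * I.auxProd = B * I.auxProd := hB
    exact (Nat.eq_of_mul_eq_mul_right hauxpos h1).symm
  subst hBeq
  have hgS : Sg.good Sg.S := Sg.hgoodS (thyp_empty (I.mkCtx 𝒟 gs hT))
  have hlvlS : lvlTw (I.mkCtx 𝒟 gs hT) Sg.S = I.R0 := lvlTw_S Sg
  have hnotR0 : ∀ ℓ : ℕ, ℓ.Prime → ℓ ∉ (↑(Sg.S ∪ I.Aux) : Set ℕ) → ¬ ℓ ∣ I.R0 :=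
    fun ℓ hℓ hℓS => not_dvd_R0 I hℓ (fun h => hℓS (Finset.mem_coe.2 h))
  have hev0 : ∀ (ℓ : ℕ) (hℓ : ℓ.Prime) (hℓN : ¬ ℓ ∣ lvlTw (I.mkCtx 𝒟 gs hT) Sg.S)
      (hℓS : ℓ ∉ (↑(Sg.S ∪ I.Aux) : Set ℕ)),
      π₀ (heckeLocal.π _ _ _ _ (heckeAlgebra.T hℓ hℓN hℓS)) = aBase Sg π₀ ℓ :=
    fun ℓ hℓ hℓN hℓS => hev0_hub Sg π₀ ℓ hℓ hℓN hℓS
  -- the character of level `B`
  have hχ'ev : ∀ (ℓ : ℕ) (hℓ : ℓ.Prime) (hℓB : ¬ ℓ ∣ I.B)
      (hℓS : ℓ ∉ (↑(Sg.S ∪ I.Aux) : Set ℕ)),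
      χ' (heckeAlgebra.T hℓ hℓB hℓS) = aBase Sg π₀ ℓ := fun ℓ hℓ hℓB hℓS => by
    have hℓN : ¬ ℓ ∣ lvlTw (I.mkCtx 𝒟 gs hT) Sg.S := by
      rw [hlvlS]
      exact hnotR0 ℓ hℓ hℓS
    rw [hχ' ℓ hℓ hℓB hℓN hℓS]
    exact hev0 ℓ hℓ hℓN hℓS
  -- the residual system is the system of `W`
  have ht : ∀ ℓ : ℕ, ℓ.Prime → ℓ ∉ Sg.S ∪ I.Aux → I.W.IsGoodPrimeFor ℓ →
      residue Sg.𝒪 (aBase Sg π₀ ℓ) = ((I.W.apOfModel ℓ : ℤ) : ResidueField Sg.𝒪) := by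
    intro ℓ hℓ hℓS hgood
    have hℓS' : ℓ ∉ (↑(Sg.S ∪ I.Aux) : Set ℕ) := fun h => hℓS (Finset.mem_coe.1 h)
    have hℓN : ¬ ℓ ∣ lvlTw (I.mkCtx 𝒟 gs hT) Sg.S := by
      rw [hlvlS]
      exact hnotR0 ℓ hℓ hℓS'
    rw [← hev0 ℓ hℓ hℓN hℓS']
    exact I.residue_point_eq_ap 𝒟 gs hT Sg Sg.S hgS π₀ ℓ hℓ hℓN hℓS' hgood
  -- newness at the level `B`
  have hnewB : ∀ r : ℕ, r.Prime → r ∣ I.B → ∀ (M'' : ℕ) [NeZero M''], I.B = M'' * r →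
      ¬ r ∣ M'' →
      ¬ ∃ χ : heckeAlgebra M'' 2 (↑(Sg.S ∪ I.Aux) : Set ℕ) →+* ResidueField Sg.𝒪,
        ∀ (ℓ : ℕ) (hℓ : ℓ.Prime) (hℓB : ¬ ℓ ∣ I.B) (hℓM'' : ¬ ℓ ∣ M'')
          (hℓS : ℓ ∉ (↑(Sg.S ∪ I.Aux) : Set ℕ)),
          χ (heckeAlgebra.T hℓ hℓM'' hℓS) = residue Sg.𝒪 (aBase Sg π₀ ℓ) := by
    intro r hr hrB M'' _ hM'' hrM''
    by_cases hrp : r = I.p
    · subst hrp
      exact I.hnew_B_p (hnoP hrB) Sg.S rfl (fun ℓ => residue Sg.𝒪 (aBase Sg π₀ ℓ)) ht M'' hM'' hrM''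
    · exact I.hnew_B Sg.S rfl (fun ℓ => residue Sg.𝒪 (aBase Sg π₀ ℓ)) ht r M'' hr hrp hM'' hrM''
  -- the signs at the level `B`
  exact exists_signs_B I.B_sq (Sg.S ∪ I.Aux) (dropSet I)
    (fun q hq hd => Finset.mem_union_left _ (Finset.mem_union_left _ (mem_Smin_of_dvd_B I hq hd)))
    (dropSet_subset I) (fun ℓ hℓ => mem_dropSet_or_dvd I hℓ) χ' (aBase Sg π₀) hχ'ev hnewB

end HSW

end Fermat.Agent.S59lib.Nu
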