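/-
S59lib / Nu / HSWChain (helper6) — Project I: **the chain package of (HS-Σ) / (HS-p) at the hub contexts of `(W, p)`**.

`HSW.ChainPkg` collects, for a base point `π₀` old at the auxiliary primes and a set `Σ` of primes, everything the two
Hecke-side bricks (`HS.hs_sigma`, `RT.pstep_hecke_abs`) need below the top level:
the system `ev₀` (signs at the primes of `B`), the list `l` of `Σ` with `lvlTw P (Smin ∪ Σ) = lvlP R0 l`, a non-Eisenstein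
prime `ℓ₁`, the chain hypothesis `ChainOK`, the non-vanishing at the base `R0` and at the top `lvlP R0 l`, and the base
`hbase` (helper5's `hbase_hub`).  `HSW.exists_chainPkg` produces it.
-/
import Mathlib
import Fermat.Agent.S59lib.Nu.HSWData
import Fermat.Agent.S59lib.Min.HS6.HubBase

set_option autoImplicit false
set_option linter.unusedSectionVars false
set_option linter.unusedVariables false
set_option linter.style.haveILetI false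

noncomputable section

namespace Fermat.Agent.S59lib.Nu

open Fermat.Agent.S43lib.Mod4 Fermat.Agent.S43lib.Mod4.Hub
open Module IsLocalRing CongruenceSubgroup CuspForm
open Fermat.Agent.S59lib.N3 Fermat.Agent.S59lib.HS Fermat.Agent.S59lib.Hub
open Fermat.Agent.S59lib.NumCrit
open scoped MatrixGroups

local notation "GQ" => (AlgebraicClosure ℚ ≃ₐ[ℚ] AlgebraicClosure ℚ)

namespace HSW

instance instNeZeroB (I : WIn) : NeZero I.B := ⟨I.B_ne_zero⟩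

instance instNeZeroR0 (I : WIn) : NeZero I.R0 := ⟨I.R0_sq.ne_zero⟩

variable (I : WIn) (𝒟 : DefType) (gs : GSFor I.p I.Smin 𝒟) (hT : I.HeckeTypeFor 𝒟)

/-- **the chain package** below the top level of (HS-Σ) / (HS-p) -/
structure ChainPkg (Sg : SideGal (I.mkCtx 𝒟 gs hT) ∅) (π₀ : (Tmin Sg).R →ₐ[Sg.𝒪] Sg.𝒪)
    (Sig S₁ : Finset ℕ) (ev₀ : ℕ → Sg.𝒪) (l : List Nat.Primes) (ℓ₁ : ℕ) : Prop where
  ev_off : ∀ ℓ : ℕ, ¬ ℓ ∣ I.B → ev₀ ℓ = aBase Sg π₀ ℓ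
  ev_sq : ∀ r : ℕ, r.Prime → r ∣ I.B → ev₀ r * ev₀ r = 1
  nodup : l.Nodup
  mem_Sig : ∀ q' ∈ l, ((q' : Nat.Primes) : ℕ) ∈ Sig
  mem_l : ∀ q ∈ Sig, ∃ q' ∈ l, ((q' : Nat.Primes) : ℕ) = q
  lvl : lvlTw (I.mkCtx 𝒟 gs hT) (Sg.S ∪ Sig) = lvlP I.R0 l
  sum : (l.map fun q : Nat.Primes => Module.length Sg.𝒪
      (Sg.𝒪 ⧸ (Ideal.span {cTw (q : ℕ) (ev₀ q)} : Ideal Sg.𝒪))).sum =
    ∑ q ∈ Sig, Module.length Sg.𝒪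
      (Sg.𝒪 ⧸ (Ideal.span {Fermat.Agent.S59lib.RT.cTame (aBase Sg π₀) q} : Ideal Sg.𝒪))
  prime₁ : ℓ₁.Prime
  notMem₁ : ℓ₁ ∉ S₁
  not_dvd₁ : ¬ ℓ₁ ∣ lvlTw (I.mkCtx 𝒟 gs hT) (Sg.S ∪ Sig)
  notMemS₁ : ℓ₁ ∉ (Sg.S ∪ Sig) ∪ I.Aux
  notDrop₁ : ℓ₁ ∉ dropSet I
  unit₁ : IsUnit (ev₀ ℓ₁ - ((ℓ₁ : Sg.𝒪) + 1))
  ok : ChainOK I.p I.R0 (fun ℓ => ℓ ∈ dropSet I) ev₀ l
  ne_base : eigO Sg.𝒪 I.R0 (fun ℓ => ℓ ∈ dropSet I) ev₀ ≠ ⊥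
  ne_top : eigO Sg.𝒪 (lvlP I.R0 l) (fun ℓ => ℓ ∈ dropSet I) (evP ev₀ l) ≠ ⊥
  base : (Module.finrank Sg.𝒪 (eigO Sg.𝒪 I.R0 (fun ℓ => ℓ ∈ dropSet I) ev₀) : ℕ∞) *
      Module.length Sg.𝒪 (Sg.𝒪 ⧸ congIdeal π₀) = congL Sg.𝒪 I.R0 (fun ℓ => ℓ ∈ dropSet I) ev₀

set_option maxHeartbeats 1600000 in
set_option synthInstance.maxHeartbeats 400000 in
/-- **the chain package exists** -/
theorem exists_chainPkg (hnoP : I.p ∣ I.B → Fermat.Agent.S59lib.NoLevelPrimeTo I.W I.p)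
    (hAux : I.Aux.card ≤ 1) (Sg : SideGal (I.mkCtx 𝒟 gs hT) ∅) {N : ℕ} (hN : N ∣ I.B)
    (hmod : I.IsMod N) (hty : TypeOK (I.mkCtx 𝒟 gs hT) Sg)
    (π₀ : (Tmin Sg).R →ₐ[Sg.𝒪] Sg.𝒪) (hold : OldAtAux (I.mkCtx 𝒟 gs hT) Sg π₀)
    (Sig : Finset ℕ) (hSig : Sg.good (Sg.S ∪ Sig)) (hdisj : Disjoint Sg.S Sig) (S₁ : Finset ℕ) :
    ∃ (ev₀ : ℕ → Sg.𝒪) (l : List Nat.Primes) (ℓ₁ : ℕ), ChainPkg I 𝒟 gs hT Sg π₀ Sig S₁ ev₀ l ℓ₁ := by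
  classical
  letI : Algebra (ZMod I.p) (ResidueField Sg.𝒪) := Sg.instAlgebraZMod
  have hB : I.R0 = I.B * ∏ r ∈ I.Aux, r := rfl
  have hN' : N ∣ M₀ (I.mkCtx 𝒟 gs hT) ∅ := by
    rw [M₀_empty]
    exact hN.trans (B_dvd_R0 I)
  have hgS : Sg.good Sg.S := Sg.hgoodS (thyp_empty (I.mkCtx 𝒟 gs hT))
  have hlvlS : lvlTw (I.mkCtx 𝒟 gs hT) Sg.S = I.R0 := lvlTw_S Sg
  -- the primes outside `Smin ∪ Aux`
  have hnotR0 : ∀ ℓ : ℕ, ℓ.Prime → ℓ ∉ (↑(Sg.S ∪ I.Aux) : Set ℕ) → ¬ ℓ ∣ I.R0 :=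
    fun ℓ hℓ hℓS => not_dvd_R0 I hℓ (fun h => hℓS (Finset.mem_coe.2 h))
  -- the eigenvalues of the base point
  have hev0 : ∀ (ℓ : ℕ) (hℓ : ℓ.Prime) (hℓN : ¬ ℓ ∣ lvlTw (I.mkCtx 𝒟 gs hT) Sg.S)
      (hℓS : ℓ ∉ (↑(Sg.S ∪ I.Aux) : Set ℕ)),
      π₀ (heckeLocal.π _ _ _ _ (heckeAlgebra.T hℓ hℓN hℓS)) = aBase Sg π₀ ℓ :=
    fun ℓ hℓ hℓN hℓS => hev0_hub Sg π₀ ℓ hℓ hℓN hℓS
  have hres : ∀ (ℓ : ℕ) (hℓ : ℓ.Prime) (hℓS : ℓ ∉ (↑(Sg.S ∪ I.Aux) : Set ℕ)),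
      residue Sg.𝒪 (aBase Sg π₀ ℓ) = tS Sg ℓ := fun ℓ hℓ hℓS =>
    residue_aBase Sg π₀ ℓ hℓ (by rw [hlvlS]; exact hnotR0 ℓ hℓ hℓS) hℓS
  -- the signs at the level `B`
  obtain ⟨ev₀, hev₀1, hev₀2, hneB⟩ := exists_signs_hub I 𝒟 gs hT hnoP Sg π₀ hold
  -- the list of the primes of `Σ`
  have hSigp : ∀ q ∈ Sig, q.Prime := fun q hq => hSig.2.1 q (Finset.mem_union_right _ hq)
  obtain ⟨l, hl, hlSig, hSigl, hlvl, hsum⟩ := exists_list_sigma Sg Sig hSigp hdisj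
  have hSigS : ∀ q ∈ Sig, q ∉ Sg.S := fun q hq h => Finset.disjoint_left.1 hdisj h hq
  have hSigA : ∀ q ∈ Sig, q ∉ I.Aux := fun q hq h =>
    Finset.disjoint_left.1 hSig.2.2 (Finset.mem_union_right _ hq) h
  have hSigB : ∀ q ∈ Sig, ¬ q ∣ I.B := fun q hq h =>
    hSigS q hq (Finset.mem_union_left _ (mem_Smin_of_dvd_B I (hSigp q hq) h))
  have hSigD : ∀ q ∈ Sig, q ∉ dropSet I := fun q hq h => by
    rcases Finset.mem_union.1 (dropSet_subset I h) with h1 | h1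
    · exact hSigS q hq h1
    · exact hSigA q hq h1
  -- a non-Eisenstein prime
  obtain ⟨ℓ₁, hℓ₁, hℓ₁S₁, -, -, hu⟩ := hu_hub Sg π₀
    ((S₁ ∪ ((Sg.S ∪ Sig) ∪ I.Aux)) ∪ (lvlTw (I.mkCtx 𝒟 gs hT) (Sg.S ∪ Sig)).primeFactors)
  have hℓ₁M : ¬ ℓ₁ ∣ lvlTw (I.mkCtx 𝒟 gs hT) (Sg.S ∪ Sig) := fun h =>
    hℓ₁S₁ (Finset.mem_union_right _ (Nat.mem_primeFactors.2 ⟨hℓ₁, h, NeZero.ne _⟩))
  have hℓ₁SS : ℓ₁ ∉ (Sg.S ∪ Sig) ∪ I.Aux := fun h =>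
    hℓ₁S₁ (Finset.mem_union_left _ (Finset.mem_union_right _ h))
  have hℓ₁S₁' : ℓ₁ ∉ S₁ := fun h =>
    hℓ₁S₁ (Finset.mem_union_left _ (Finset.mem_union_left _ h))
  have hℓ₁D : ℓ₁ ∉ dropSet I := fun h => by
    rcases Finset.mem_union.1 (dropSet_subset I h) with h1 | h1
    · exact hℓ₁SS (Finset.mem_union_left _ (Finset.mem_union_left _ h1))
    · exact hℓ₁SS (Finset.mem_union_right _ h1)
  have hℓ₁R0 : ¬ ℓ₁ ∣ I.R0 := fun h =>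
    hℓ₁M (h.trans (R0_dvd_lvlTw (I.mkCtx 𝒟 gs hT) (Sg.S ∪ Sig)))
  have hℓ₁B : ¬ ℓ₁ ∣ I.B := fun h => hℓ₁R0 (h.trans (B_dvd_R0 I))
  have hu' : IsUnit (ev₀ ℓ₁ - ((ℓ₁ : Sg.𝒪) + 1)) := by
    rw [hev₀1 ℓ₁ hℓ₁B]
    exact hu
  have hℓ₁l : ¬ ℓ₁ ∣ lvlP I.B l := by
    intro h
    rcases Fermat.Agent.S59lib.SMO.prime_dvd_lvlP hℓ₁ h with h1 | ⟨q', hq', h1⟩
    · exact hℓ₁B h1
    · exact hℓ₁SS (Finset.mem_union_left _ (Finset.mem_union_right _ (h1 ▸ hlSig q' hq')))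
  have hℓ₁lR : ¬ ℓ₁ ∣ lvlP I.R0 l := by
    intro h
    apply hℓ₁M
    rw [hlvl]
    exact h
  -- the chain
  obtain ⟨hok, hneR⟩ := chain_data (p := I.p) (𝒪 := Sg.𝒪) I.hp2 Sg.hp𝒪 (B := I.B)
    (R0 := I.R0) I.Aux hAux hB (dropSet I) (Aux_subset_dropSet I)
    (fun r hr => dropSet_prime I hr) ev₀ hℓ₁ hℓ₁D hu' hneB l hl hℓ₁l
    (fun q hq => ⟨hSigB _ (hlSig q hq), fun h => hSigS _ (hlSig q hq)
      (by rw [h]; exact Finset.mem_union_left _ I.hpSmin), hSigD _ (hlSig q hq)⟩)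
  have hneT : eigO Sg.𝒪 (lvlP I.R0 l) (fun ℓ => ℓ ∈ dropSet I) (evP ev₀ l) ≠ ⊥ :=
    eigO_ne_bot_top (p := I.p) I.hp2 Sg.hp𝒪 I.R0 _ ev₀ hℓ₁ hℓ₁D hu' hneR l hok hℓ₁lR
  -- the base of the chain
  have hbase := Fermat.Agent.S59lib.Min.HS6.hbase_hub Sg hN' hmod hty π₀ ev₀
    (fun ℓ hℓ hℓN hℓS => by
      rw [hev0 ℓ hℓ hℓN hℓS, hev₀1 ℓ (fun h => hnotR0 ℓ hℓ hℓS (h.trans (B_dvd_R0 I)))])
    I.R0 (M₀_empty (I.mkCtx 𝒟 gs hT)).symm (fun ℓ => ℓ ∈ dropSet I)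
    (fun ℓ hℓ hℓR0 => by
      constructor
      · intro h
        rcases (mem_dropSet I).1 h with h1 | ⟨-, h2⟩
        · exact absurd (I.Aux_dvd ℓ h1) hℓR0
        · exact h2
      · intro h
        refine (mem_dropSet I).2 (Or.inr ⟨fun hp => hℓR0 ?_, h⟩)
        exact (show ℓ = I.p from h) ▸ hp.trans (B_dvd_R0 I))
    (fun r M'' _ hr hM'' hrM'' hrD => by
      have hrR0 : r ∣ I.R0 := ⟨M'', by rw [show I.R0 = M'' * r from hM'', mul_comm]⟩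
      have hrA : r ∉ I.Aux := fun h => hrD (Aux_subset_dropSet I h)
      have hrSmin : r ∈ I.Smin := by
        rcases Finset.mem_union.1 (I.R0_primes r hr hrR0) with h | h
        · exact h
        · exact absurd h hrA
      have hrB : r ∣ I.B := dvd_B_of_mem_Smin I hrSmin hrD
      refine ⟨hev₀2 r hr hrB, ?_⟩
      rintro ⟨χ, hχ⟩
      have hM''' : lvlTw (I.mkCtx 𝒟 gs hT) Sg.S = M'' * r := hlvlS.trans hM''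
      have hχ' : ∀ (ℓ : ℕ) (hℓ : ℓ.Prime) (hℓM : ¬ ℓ ∣ lvlTw (I.mkCtx 𝒟 gs hT) Sg.S)
          (hℓM' : ¬ ℓ ∣ M'') (hℓS : ℓ ∉ (↑(Sg.S ∪ I.Aux) : Set ℕ)),
          χ (heckeAlgebra.T hℓ hℓM' hℓS) = Sg.D.θ Sg.S hgS (heckeAlgebra.T hℓ hℓM hℓS) := by
        intro ℓ hℓ hℓM hℓM' hℓS
        have hℓR0 : ¬ ℓ ∣ I.R0 := hnotR0 ℓ hℓ hℓS
        rw [hχ ℓ hℓ hℓR0 hℓM' hℓS, hev₀1 ℓ (fun h => hℓR0 (h.trans (B_dvd_R0 I))), hres ℓ hℓ hℓS]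
        exact (hubHyp_hθ Sg Sg.S hgS ℓ hℓ hℓM hℓS).symm
      by_cases hrp : r = I.p
      · subst hrp
        exact I.hone_hub_p 𝒟 gs hT (hnoP hrB) Sg Sg.S hgS M'' hM''' hrM'' ⟨χ, hχ'⟩
      · exact I.hone_hub 𝒟 gs hT Sg Sg.S hgS r M'' hr hrp hrA hM''' hrM'' ⟨χ, hχ'⟩)
  -- the shape of the sum
  have hlist : (l.map fun q : Nat.Primes => Module.length Sg.𝒪
      (Sg.𝒪 ⧸ (Ideal.span {cTw (q : ℕ) (ev₀ q)} : Ideal Sg.𝒪))) =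
      l.map fun q : Nat.Primes => (fun q : ℕ => Module.length Sg.𝒪
        (Sg.𝒪 ⧸ (Ideal.span {Fermat.Agent.S59lib.RT.cTame (aBase Sg π₀) q} : Ideal Sg.𝒪))) (q : ℕ) := by
    refine List.map_congr_left fun q hq => ?_
    rw [hev₀1 (q : ℕ) (hSigB _ (hlSig q hq)), span_cTw_eq_span_cTame Sg (aBase Sg π₀) (q : ℕ)]
  refine ⟨ev₀, l, ℓ₁, ⟨hev₀1, hev₀2, hl, hlSig, hSigl, hlvl, ?_, hℓ₁, hℓ₁S₁', hℓ₁M, hℓ₁SS, hℓ₁D, hu',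
    hok, hneR, hneT, hbase⟩⟩
  rw [hlist]
  exact hsum (fun q : ℕ => Module.length Sg.𝒪
    (Sg.𝒪 ⧸ (Ideal.span {Fermat.Agent.S59lib.RT.cTame (aBase Sg π₀) q} : Ideal Sg.𝒪)))

end HSW

end Fermat.Agent.S59lib.Nu
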